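import Fermat.Agent.LT.T7.H62.RigidWhit

/-!
# Row LT, tower T7, leaf T7.14.6b.0 `Rigid.MixC` (helper267, OFF-MAIN)

`mixC267 K : Fermat.Agent.LT.T7.Rigid.MixC K`, verbatim against the byte-identical copy of
`T7/H62/RigidWhit.lean` (helper62).  Mathlib only (restricted product).

For ideles `y, y'` and a finite set `S` of finite places: the idele with the components of `y`
at `S` and the components of `y'` at all other places (finite outside `S`, and infinite).

Extras (own names): `idele_ext267` (an idele is determined by its components), `localIdele267`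
(component `t ≠ 0` at `v`, `1` elsewhere) and `exists_isUnifIdele267`.
-/

set_option autoImplicit false

open IsDedekindDomain NumberField

noncomputable section

namespace Fermat.Agent.LT.T7.Rigid.H267

open Fermat.Agent.LT.H556 Fermat.Agent.LT.H556.A0 Fermat.Agent.LT.T7 Fermat.Agent.LT.T7.Rigid

variable {K : Type} [Field K] [NumberField K]

/-! ## Mixing finite adeles -/

open scoped Classical in
/-- The finite adele with the components of `a` at `S` and those of `b` elsewhere. -/
def mixFin267 (S : Finset (HeightOneSpectrum (𝓞 K))) (a b : FiniteAdeleRing (𝓞 K) K) :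
    FiniteAdeleRing (𝓞 K) K :=
  ⟨fun v => if v ∈ S then a v else b v, by
    have hS : ∀ᶠ v in Filter.cofinite, v ∉ S := by
      rw [Filter.eventually_cofinite]
      simp
    filter_upwards [b.2, hS] with v hb hv
    rw [if_neg hv]
    exact hb⟩

open scoped Classical in
theorem mixFin267_apply (S : Finset (HeightOneSpectrum (𝓞 K))) (a b : FiniteAdeleRing (𝓞 K) K)
    (v : HeightOneSpectrum (𝓞 K)) : mixFin267 S a b v = if v ∈ S then a v else b v := rfl

theorem mixFin267_of_mem (S : Finset (HeightOneSpectrum (𝓞 K)))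
    (a b : FiniteAdeleRing (𝓞 K) K) {v : HeightOneSpectrum (𝓞 K)} (hv : v ∈ S) :
    mixFin267 S a b v = a v := by
  rw [mixFin267_apply, if_pos hv]

theorem mixFin267_of_notMem (S : Finset (HeightOneSpectrum (𝓞 K)))
    (a b : FiniteAdeleRing (𝓞 K) K) {v : HeightOneSpectrum (𝓞 K)} (hv : v ∉ S) :
    mixFin267 S a b v = b v := by
  rw [mixFin267_apply, if_neg hv]

theorem mixFin267_mul (S : Finset (HeightOneSpectrum (𝓞 K)))
    (a b a' b' : FiniteAdeleRing (𝓞 K) K) :
    mixFin267 S a b * mixFin267 S a' b' = mixFin267 S (a * a') (b * b') := by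
  refine FiniteAdeleRing.ext K fun v => ?_
  have hmul : ∀ p q : FiniteAdeleRing (𝓞 K) K, (p * q) v = p v * q v := fun _ _ => rfl
  rw [hmul]
  by_cases hv : v ∈ S
  · rw [mixFin267_of_mem S _ _ hv, mixFin267_of_mem S _ _ hv, mixFin267_of_mem S _ _ hv, hmul]
  · rw [mixFin267_of_notMem S _ _ hv, mixFin267_of_notMem S _ _ hv,
      mixFin267_of_notMem S _ _ hv, hmul]

theorem mixFin267_one (S : Finset (HeightOneSpectrum (𝓞 K))) :
    mixFin267 S (1 : FiniteAdeleRing (𝓞 K) K) 1 = 1 := by
  refine FiniteAdeleRing.ext K fun v => ?_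
  by_cases hv : v ∈ S
  · rw [mixFin267_of_mem S _ _ hv]
  · rw [mixFin267_of_notMem S _ _ hv]

/-! ## Mixing ideles -/

/-- The adele with the finite components of `x` at `S` and all other components those of
`x'`. -/
def mixAdl267 (S : Finset (HeightOneSpectrum (𝓞 K))) (x x' : Adl K) : Adl K :=
  (x'.1, mixFin267 S x.2 x'.2)

theorem mixAdl267_mul (S : Finset (HeightOneSpectrum (𝓞 K))) (x x' u u' : Adl K) :
    mixAdl267 S x x' * mixAdl267 S u u' = mixAdl267 S (x * u) (x' * u') := by
  refine Prod.ext rfl ?_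
  exact mixFin267_mul S x.2 x'.2 u.2 u'.2

theorem mixAdl267_one (S : Finset (HeightOneSpectrum (𝓞 K))) :
    mixAdl267 S (1 : Adl K) 1 = 1 := by
  refine Prod.ext rfl ?_
  exact mixFin267_one S

/-- The idele with the components of `y` at `S` and those of `y'` elsewhere. -/
def mixIdele267 (S : Finset (HeightOneSpectrum (𝓞 K))) (y y' : (Adl K)ˣ) : (Adl K)ˣ :=
  Units.mkOfMulEqOne (mixAdl267 S (y : Adl K) (y' : Adl K))
    (mixAdl267 S ((y⁻¹ : (Adl K)ˣ) : Adl K) ((y'⁻¹ : (Adl K)ˣ) : Adl K)) (by
      rw [mixAdl267_mul, Units.mul_inv, Units.mul_inv, mixAdl267_one])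

theorem mixIdele267_sameAt (S : Finset (HeightOneSpectrum (𝓞 K))) (y y' : (Adl K)ˣ) :
    SameAt S (mixIdele267 S y y') y :=
  fun _ hv => mixFin267_of_mem S _ _ hv

theorem mixIdele267_sameOff (S : Finset (HeightOneSpectrum (𝓞 K))) (y y' : (Adl K)ˣ) :
    SameOff S (mixIdele267 S y y') y' :=
  ⟨fun _ hv => mixFin267_of_notMem S _ _ hv, fun _ => rfl⟩

/-! ## Extras: ideles by components, local ideles, uniformiser ideles -/

/-- An idele is determined by its components. -/
theorem idele_ext267 {y z : (Adl K)ˣ}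
    (hinf : ∀ w : InfinitePlace K, (y : Adl K).1 w = (z : Adl K).1 w)
    (hfin : ∀ v : HeightOneSpectrum (𝓞 K), (y : Adl K).2 v = (z : Adl K).2 v) : y = z :=
  Units.ext (Prod.ext (funext hinf) (FiniteAdeleRing.ext K hfin))

open scoped Classical in
/-- The finite adele with component `t` at `v` and `1` elsewhere. -/
def localFin267 (v : HeightOneSpectrum (𝓞 K)) (t : v.adicCompletion K) :
    FiniteAdeleRing (𝓞 K) K :=
  RestrictedProduct.mulSingle (fun v : HeightOneSpectrum (𝓞 K) => v.adicCompletionIntegers K) v t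

theorem localFin267_same (v : HeightOneSpectrum (𝓞 K)) (t : v.adicCompletion K) :
    localFin267 v t v = t := by
  classical
  exact RestrictedProduct.mulSingle_eq_same _ v t

theorem localFin267_of_ne (v : HeightOneSpectrum (𝓞 K)) (t : v.adicCompletion K)
    {v' : HeightOneSpectrum (𝓞 K)} (h : v' ≠ v) : localFin267 v t v' = 1 := by
  classical
  exact RestrictedProduct.mulSingle_eq_of_ne _ t h

theorem localFin267_mul (v : HeightOneSpectrum (𝓞 K)) (t u : v.adicCompletion K) :
    localFin267 v t * localFin267 v u = localFin267 v (t * u) := by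
  refine FiniteAdeleRing.ext K fun v' => ?_
  have hmul : ∀ p q : FiniteAdeleRing (𝓞 K) K, (p * q) v' = p v' * q v' := fun _ _ => rfl
  rw [hmul]
  by_cases h : v' = v
  · subst h
    rw [localFin267_same, localFin267_same, localFin267_same]
  · rw [localFin267_of_ne v _ h, localFin267_of_ne v _ h, localFin267_of_ne v _ h, one_mul]

theorem localFin267_one (v : HeightOneSpectrum (𝓞 K)) :
    localFin267 v (1 : v.adicCompletion K) = 1 := by
  refine FiniteAdeleRing.ext K fun v' => ?_
  by_cases h : v' = v
  · subst h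
    rw [localFin267_same]
    rfl
  · rw [localFin267_of_ne v _ h]
    rfl

/-- The idele with component `t ≠ 0` at the finite place `v` and `1` at every other place. -/
def localIdele267 (v : HeightOneSpectrum (𝓞 K)) (t : v.adicCompletion K) (ht : t ≠ 0) :
    (Adl K)ˣ :=
  Units.mkOfMulEqOne ((1, localFin267 v t) : Adl K) ((1, localFin267 v t⁻¹) : Adl K) (by
    refine Prod.ext (mul_one _) ?_
    show localFin267 v t * localFin267 v t⁻¹ = 1
    rw [localFin267_mul, mul_inv_cancel₀ ht, localFin267_one])

theorem localIdele267_inf (v : HeightOneSpectrum (𝓞 K)) (t : v.adicCompletion K) (ht : t ≠ 0)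
    (w : InfinitePlace K) : ((localIdele267 v t ht : (Adl K)ˣ) : Adl K).1 w = 1 := rfl

theorem localIdele267_same (v : HeightOneSpectrum (𝓞 K)) (t : v.adicCompletion K) (ht : t ≠ 0) :
    ((localIdele267 v t ht : (Adl K)ˣ) : Adl K).2 v = t :=
  localFin267_same v t

theorem localIdele267_of_ne (v : HeightOneSpectrum (𝓞 K)) (t : v.adicCompletion K) (ht : t ≠ 0)
    {v' : HeightOneSpectrum (𝓞 K)} (h : v' ≠ v) :
    ((localIdele267 v t ht : (Adl K)ˣ) : Adl K).2 v' = 1 :=
  localFin267_of_ne v t h

/-- There is a uniformiser idele at every finite place. -/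
theorem exists_isUnifIdele267 (v : HeightOneSpectrum (𝓞 K)) : ∃ t : (Adl K)ˣ, IsUnifIdele v t := by
  obtain ⟨π, hπ⟩ := v.valuation_exists_uniformizer K
  have hval : Valued.v (algebraMap K (v.adicCompletion K) π) = WithZero.exp (-1 : ℤ) := by
    rw [← hπ]
    exact HeightOneSpectrum.valuedAdicCompletion_eq_valuation' v π
  have hne : algebraMap K (v.adicCompletion K) π ≠ 0 := by
    intro h0
    rw [h0, map_zero] at hval
    exact WithZero.exp_ne_zero hval.symm
  refine ⟨localIdele267 v _ hne, localIdele267_inf v _ hne,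
    fun v' h => localIdele267_of_ne v _ hne h, ?_⟩
  rw [localIdele267_same]
  exact hval

/-! ## The leaf -/

/-- **LEAF MIX**, proved. -/
theorem mixC267 (K : Type) [Field K] [NumberField K] : MixC K :=
  fun S y y' => ⟨mixIdele267 S y y', mixIdele267_sameAt S y y', mixIdele267_sameOff S y y'⟩

end Fermat.Agent.LT.T7.Rigid.H267

end
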