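import Fermat.Agent.LT.T7.H671.LimSpec

/-!
# Row LT, tower T7, leaf T7.14.3i `H671.SieveIdC` (helper267, OFF-MAIN)

`sieveIdC267 K : Fermat.Agent.LT.T7.H671.SieveIdC K`, verbatim against the byte-identical copy of
`T7/H671/LimSpec.lean` (helper671).  Mathlib + the spec closure only.

Purely local, place by place.  With `x = r₀_u`, `y = r₁_u`, `m = μ_u`, `p = (ϖ u)_u`:

* the row of `T` at `u ∉ T` is integral iff `‖x‖ ≤ ‖m‖`, `‖y‖ ≤ 1` (`locInt_of_notMem267`);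
* the row of `T` at `u ∈ T`, `u ∣ 𝔪`, is integral iff `‖x‖ ≤ ‖m‖`, `‖y‖ ≤ ‖p‖`;
* the row of `T` at `u ∈ T`, `u ∤ 𝔪`, is integral iff `‖x‖ ≤ ‖m‖ ‖p‖`, `‖y‖ ≤ ‖p‖`;
* discreteness (`norm_eq_one_of267`): `‖x‖ ≤ 1` and not `‖x‖ ≤ ‖p‖ = q⁻¹` give `‖x‖ = 1`.
-/

set_option autoImplicit false

open IsDedekindDomain NumberField WithZeroMulInt
open scoped NNReal

noncomputable section

namespace Fermat.Agent.LT.T7.H671.H267

open Fermat.Agent.LT.H556 Fermat.Agent.LT.H556.A0 Fermat.Agent.LT.T7 Fermat.Agent.LT.T7.H671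

section Norm

variable {K : Type} [Field K] [NumberField K] (v : HeightOneSpectrum (𝓞 K))

theorem norm_eq_toNNReal267 (x : v.adicCompletion K) :
    ‖x‖ = ((toNNReal (HeightOneSpectrum.absNorm_ne_zero v) (Valued.v x) : ℝ≥0) : ℝ) :=
  FinitePlace.norm_def v x

theorem norm_le_norm_iff267 (x y : v.adicCompletion K) :
    ‖x‖ ≤ ‖y‖ ↔ Valued.v x ≤ Valued.v y := by
  rw [norm_eq_toNNReal267, norm_eq_toNNReal267, NNReal.coe_le_coe]
  exact (toNNReal_strictMono (HeightOneSpectrum.one_lt_absNorm_nnreal v)).le_iff_le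

theorem norm_le_one_iff267 (x : v.adicCompletion K) : ‖x‖ ≤ 1 ↔ Valued.v x ≤ 1 := by
  have := norm_le_norm_iff267 v x 1
  rwa [norm_one, map_one] at this

theorem mem_int_iff267 (x : v.adicCompletion K) :
    x ∈ v.adicCompletionIntegers K ↔ ‖x‖ ≤ 1 := by
  rw [norm_le_one_iff267, HeightOneSpectrum.mem_adicCompletionIntegers]

theorem toNNReal_exp_neg_one267 :
    toNNReal (HeightOneSpectrum.absNorm_ne_zero v) (WithZero.exp (-1 : ℤ))
      = ((Ideal.absNorm v.asIdeal : ℕ) : ℝ≥0)⁻¹ := by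
  rw [toNNReal_neg_apply _ WithZero.exp_ne_zero, WithZero.toAdd_unzero_eq_log,
    WithZero.log_exp, zpow_neg_one]

theorem valued_eq_of_norm267 (π : v.adicCompletion K)
    (hπ : ‖π‖ = ((Ideal.absNorm v.asIdeal : ℕ) : ℝ)⁻¹) : Valued.v π = WithZero.exp (-1 : ℤ) := by
  apply (toNNReal_strictMono (HeightOneSpectrum.one_lt_absNorm_nnreal v)).injective
  rw [toNNReal_exp_neg_one267]
  apply NNReal.coe_injective
  rw [← norm_eq_toNNReal267, hπ]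
  push_cast
  rfl

/-- Discreteness: an integral element which is not divisible by the uniformiser is a unit. -/
theorem norm_eq_one_of267 (x π : v.adicCompletion K)
    (hπ : ‖π‖ = ((Ideal.absNorm v.asIdeal : ℕ) : ℝ)⁻¹) (h1 : ‖x‖ ≤ 1) (h2 : ¬ ‖x‖ ≤ ‖π‖) :
    ‖x‖ = 1 := by
  rw [norm_le_one_iff267] at h1
  rw [norm_le_norm_iff267, valued_eq_of_norm267 v π hπ] at h2
  have hx0 : Valued.v x ≠ 0 := by
    intro h0
    rw [h0] at h2
    exact h2 zero_le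
  have hv : Valued.v x = 1 := by
    rw [← WithZero.exp_log hx0] at h1 h2 ⊢
    rw [← WithZero.exp_zero, WithZero.exp_le_exp] at h1
    rw [WithZero.exp_le_exp] at h2
    rw [← WithZero.exp_zero, WithZero.exp_inj]
    omega
  apply le_antisymm
  · rw [norm_le_one_iff267, hv]
  · have := (norm_le_norm_iff267 v 1 x).mpr (by rw [map_one, hv])
    rwa [norm_one] at this

end Norm

/-! ## Components of finite ideles -/

section Comp

variable {K : Type} [Field K] [NumberField K]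

/-- The component at `u`, as a monoid homomorphism on the finite ideles. -/
def compHom267 (u : HeightOneSpectrum (𝓞 K)) :
    (FiniteAdeleRing (𝓞 K) K)ˣ →* u.adicCompletion K where
  toFun a := (a : FiniteAdeleRing (𝓞 K) K) u
  map_one' := rfl
  map_mul' _ _ := rfl

theorem compHom267_apply (u : HeightOneSpectrum (𝓞 K)) (a : (FiniteAdeleRing (𝓞 K) K)ˣ) :
    compHom267 u a = (a : FiniteAdeleRing (𝓞 K) K) u := rfl

theorem compHom267_ne_zero (u : HeightOneSpectrum (𝓞 K)) (a : (FiniteAdeleRing (𝓞 K) K)ˣ) :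
    compHom267 u a ≠ 0 := by
  intro h0
  have h1 : compHom267 u a * compHom267 u a⁻¹ = 1 := by
    rw [← map_mul, mul_inv_cancel, map_one]
  rw [h0, zero_mul] at h1
  exact zero_ne_one h1

/-- The components of `eB`. -/
theorem compHom267_eB_of_mem (ϖ : HeightOneSpectrum (𝓞 K) → (FiniteAdeleRing (𝓞 K) K)ˣ)
    (hϖ : IsUnifFamily671 ϖ) (T : Finset (HeightOneSpectrum (𝓞 K)))
    {u : HeightOneSpectrum (𝓞 K)} (hu : u ∈ T) :
    compHom267 u (eB671 ϖ T) = (compHom267 u (ϖ u))⁻¹ := by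
  unfold eB671
  rw [map_prod, Finset.prod_eq_single_of_mem u hu, map_inv]
  intro v _ hvu
  rw [map_inv, compHom267_apply, (hϖ v).2 u (Ne.symm hvu), inv_one]

theorem compHom267_eB_of_notMem (ϖ : HeightOneSpectrum (𝓞 K) → (FiniteAdeleRing (𝓞 K) K)ˣ)
    (hϖ : IsUnifFamily671 ϖ) (T : Finset (HeightOneSpectrum (𝓞 K)))
    {u : HeightOneSpectrum (𝓞 K)} (hu : u ∉ T) :
    compHom267 u (eB671 ϖ T) = 1 := by
  unfold eB671
  rw [map_prod]
  refine Finset.prod_eq_one fun v hv => ?_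
  have hvu : u ≠ v := fun h => hu (h ▸ hv)
  rw [map_inv, compHom267_apply, (hϖ v).2 u hvu, inv_one]

/-- The components of `eA`. -/
theorem compHom267_eA_of_mem (𝔪 : Ideal (𝓞 K)) (μ : (FiniteAdeleRing (𝓞 K) K)ˣ)
    (ϖ : HeightOneSpectrum (𝓞 K) → (FiniteAdeleRing (𝓞 K) K)ˣ)
    (hϖ : IsUnifFamily671 ϖ) (T : Finset (HeightOneSpectrum (𝓞 K)))
    {u : HeightOneSpectrum (𝓞 K)} (hu : u ∈ T) (hum : ¬ u.asIdeal ∣ 𝔪) :
    compHom267 u (eA671 𝔪 μ ϖ T) = (compHom267 u μ)⁻¹ * (compHom267 u (ϖ u))⁻¹ := by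
  classical
  unfold eA671
  have hu' : u ∈ T.filter (fun v => ¬ v.asIdeal ∣ 𝔪) := Finset.mem_filter.mpr ⟨hu, hum⟩
  rw [map_mul, map_inv, map_prod, Finset.prod_eq_single_of_mem u hu', map_inv]
  intro v _ hvu
  rw [map_inv, compHom267_apply, (hϖ v).2 u (Ne.symm hvu), inv_one]

theorem compHom267_eA_of_not (𝔪 : Ideal (𝓞 K)) (μ : (FiniteAdeleRing (𝓞 K) K)ˣ)
    (ϖ : HeightOneSpectrum (𝓞 K) → (FiniteAdeleRing (𝓞 K) K)ˣ)
    (hϖ : IsUnifFamily671 ϖ) (T : Finset (HeightOneSpectrum (𝓞 K)))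
    {u : HeightOneSpectrum (𝓞 K)} (hu : ¬ (u ∈ T ∧ ¬ u.asIdeal ∣ 𝔪)) :
    compHom267 u (eA671 𝔪 μ ϖ T) = (compHom267 u μ)⁻¹ := by
  classical
  unfold eA671
  rw [map_mul, map_inv, map_prod]
  have h1 : ∏ v ∈ T.filter (fun v => ¬ v.asIdeal ∣ 𝔪), compHom267 u (ϖ v)⁻¹ = 1 := by
    refine Finset.prod_eq_one fun v hv => ?_
    have hvu : u ≠ v := by
      rintro rfl
      exact hu ⟨(Finset.mem_filter.mp hv).1, (Finset.mem_filter.mp hv).2⟩
    rw [map_inv, compHom267_apply, (hϖ v).2 u hvu, inv_one]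
  rw [h1, mul_one]

/-- The components of the row `rowDg671 a b r`. -/
theorem rowDg671_zero_apply (a b : (FiniteAdeleRing (𝓞 K) K)ˣ) (r : Fin 2 → Adl K)
    (u : HeightOneSpectrum (𝓞 K)) :
    (rowDg671 a b r 0).2 u = (r 0).2 u * compHom267 u a := rfl

theorem rowDg671_one_apply (a b : (FiniteAdeleRing (𝓞 K) K)ˣ) (r : Fin 2 → Adl K)
    (u : HeightOneSpectrum (𝓞 K)) :
    (rowDg671 a b r 1).2 u = (r 1).2 u * compHom267 u b := rfl

end Comp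

/-! ## Local integrality of the sieve rows -/

section Loc

variable {K : Type} [Field K] [NumberField K]

/-- The row `rowDg671 a b r` is integral at `u`. -/
def LocInt267 (a b : (FiniteAdeleRing (𝓞 K) K)ˣ) (r : Fin 2 → Adl K)
    (u : HeightOneSpectrum (𝓞 K)) : Prop :=
  (r 0).2 u * compHom267 u a ∈ u.adicCompletionIntegers K ∧
    (r 1).2 u * compHom267 u b ∈ u.adicCompletionIntegers K

theorem isIntRow_iff267 (a b : (FiniteAdeleRing (𝓞 K) K)ˣ) (r : Fin 2 → Adl K) :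
    IsIntRow671 (rowDg671 a b r) ↔ ∀ u : HeightOneSpectrum (𝓞 K), LocInt267 a b r u := by
  constructor
  · intro h u
    exact ⟨h u 0, h u 1⟩
  · intro h u j
    fin_cases j
    · exact (h u).1
    · exact (h u).2

theorem mul_inv_mem_iff267 (u : HeightOneSpectrum (𝓞 K)) (x c : u.adicCompletion K)
    (hc : c ≠ 0) : x * c⁻¹ ∈ u.adicCompletionIntegers K ↔ ‖x‖ ≤ ‖c‖ := by
  rw [mem_int_iff267, norm_mul, norm_inv, mul_inv_le_iff₀ (norm_pos_iff.mpr hc), one_mul]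

variable (𝔪 : Ideal (𝓞 K)) (μ : (FiniteAdeleRing (𝓞 K) K)ˣ)
  (ϖ : HeightOneSpectrum (𝓞 K) → (FiniteAdeleRing (𝓞 K) K)ˣ) (hϖ : IsUnifFamily671 ϖ)
  (r : Fin 2 → Adl K)

include hϖ

/-- At `u ∉ T` the row of `T` is the row of `∅`. -/
theorem locInt_of_notMem267 (T : Finset (HeightOneSpectrum (𝓞 K)))
    {u : HeightOneSpectrum (𝓞 K)} (hu : u ∉ T) :
    LocInt267 (eA671 𝔪 μ ϖ T) (eB671 ϖ T) r u ↔
      (‖(r 0).2 u‖ ≤ ‖compHom267 u μ‖ ∧ ‖(r 1).2 u‖ ≤ 1) := by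
  unfold LocInt267
  rw [compHom267_eA_of_not 𝔪 μ ϖ hϖ T (fun h => hu h.1), compHom267_eB_of_notMem ϖ hϖ T hu,
    mul_inv_mem_iff267 u _ _ (compHom267_ne_zero u μ), mul_one, mem_int_iff267]

/-- At `u ∈ T`, `u ∣ 𝔪`. -/
theorem locInt_of_mem_of_dvd267 (T : Finset (HeightOneSpectrum (𝓞 K)))
    {u : HeightOneSpectrum (𝓞 K)} (hu : u ∈ T) (hum : u.asIdeal ∣ 𝔪) :
    LocInt267 (eA671 𝔪 μ ϖ T) (eB671 ϖ T) r u ↔
      (‖(r 0).2 u‖ ≤ ‖compHom267 u μ‖ ∧ ‖(r 1).2 u‖ ≤ ‖compHom267 u (ϖ u)‖) := by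
  unfold LocInt267
  rw [compHom267_eA_of_not 𝔪 μ ϖ hϖ T (fun h => h.2 hum), compHom267_eB_of_mem ϖ hϖ T hu,
    mul_inv_mem_iff267 u _ _ (compHom267_ne_zero u μ),
    mul_inv_mem_iff267 u _ _ (compHom267_ne_zero u (ϖ u))]

/-- At `u ∈ T`, `u ∤ 𝔪`. -/
theorem locInt_of_mem_of_not_dvd267 (T : Finset (HeightOneSpectrum (𝓞 K)))
    {u : HeightOneSpectrum (𝓞 K)} (hu : u ∈ T) (hum : ¬ u.asIdeal ∣ 𝔪) :
    LocInt267 (eA671 𝔪 μ ϖ T) (eB671 ϖ T) r u ↔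
      (‖(r 0).2 u‖ ≤ ‖compHom267 u μ‖ * ‖compHom267 u (ϖ u)‖ ∧
        ‖(r 1).2 u‖ ≤ ‖compHom267 u (ϖ u)‖) := by
  unfold LocInt267
  rw [compHom267_eA_of_mem 𝔪 μ ϖ hϖ T hu hum, compHom267_eB_of_mem ϖ hϖ T hu, ← mul_inv,
    mul_inv_mem_iff267 u _ _ (mul_ne_zero (compHom267_ne_zero u μ) (compHom267_ne_zero u (ϖ u))),
    mul_inv_mem_iff267 u _ _ (compHom267_ne_zero u (ϖ u)), norm_mul]

theorem norm_unif_le_one267 (u : HeightOneSpectrum (𝓞 K)) : ‖compHom267 u (ϖ u)‖ ≤ 1 := by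
  rw [compHom267_apply, (hϖ u).1]
  apply inv_le_one_of_one_le₀
  have := HeightOneSpectrum.one_lt_absNorm u
  exact_mod_cast this.le

/-- At `u ∈ T` the row of `T` is the row of `{u}`. -/
theorem locInt_of_mem267 (T : Finset (HeightOneSpectrum (𝓞 K)))
    {u : HeightOneSpectrum (𝓞 K)} (hu : u ∈ T) :
    LocInt267 (eA671 𝔪 μ ϖ T) (eB671 ϖ T) r u ↔
      LocInt267 (eA671 𝔪 μ ϖ {u}) (eB671 ϖ {u}) r u := by
  by_cases hum : u.asIdeal ∣ 𝔪
  · rw [locInt_of_mem_of_dvd267 𝔪 μ ϖ hϖ r T hu hum,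
      locInt_of_mem_of_dvd267 𝔪 μ ϖ hϖ r {u} (Finset.mem_singleton_self u) hum]
  · rw [locInt_of_mem_of_not_dvd267 𝔪 μ ϖ hϖ r T hu hum,
      locInt_of_mem_of_not_dvd267 𝔪 μ ϖ hϖ r {u} (Finset.mem_singleton_self u) hum]

/-- Integral for `{u}` at `u` implies integral for `∅` at `u`. -/
theorem locInt_empty_of_single267 (u : HeightOneSpectrum (𝓞 K))
    (h : LocInt267 (eA671 𝔪 μ ϖ {u}) (eB671 ϖ {u}) r u) :
    LocInt267 (eA671 𝔪 μ ϖ ∅) (eB671 ϖ ∅) r u := by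
  rw [locInt_of_notMem267 𝔪 μ ϖ hϖ r ∅ (Finset.notMem_empty u)]
  have hp := norm_unif_le_one267 ϖ hϖ u
  by_cases hum : u.asIdeal ∣ 𝔪
  · rw [locInt_of_mem_of_dvd267 𝔪 μ ϖ hϖ r {u} (Finset.mem_singleton_self u) hum] at h
    exact ⟨h.1, h.2.trans hp⟩
  · rw [locInt_of_mem_of_not_dvd267 𝔪 μ ϖ hϖ r {u} (Finset.mem_singleton_self u) hum] at h
    refine ⟨h.1.trans ?_, h.2.trans hp⟩
    exact mul_le_of_le_one_right (norm_nonneg _) hp

/-- **Part (2)**: integrality for `T`. -/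
theorem isIntRow_T_iff267 (T : Finset (HeightOneSpectrum (𝓞 K))) :
    IsIntRow671 (rowDg671 (eA671 𝔪 μ ϖ T) (eB671 ϖ T) r) ↔
      IsIntRow671 (rowDg671 (eA671 𝔪 μ ϖ ∅) (eB671 ϖ ∅) r) ∧
        ∀ v ∈ T, IsIntRow671 (rowDg671 (eA671 𝔪 μ ϖ {v}) (eB671 ϖ {v}) r) := by
  simp only [isIntRow_iff267]
  constructor
  · intro h
    have h0 : ∀ u : HeightOneSpectrum (𝓞 K), LocInt267 (eA671 𝔪 μ ϖ ∅) (eB671 ϖ ∅) r u := by
      intro u
      by_cases hu : u ∈ T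
      · exact locInt_empty_of_single267 𝔪 μ ϖ hϖ r u
          ((locInt_of_mem267 𝔪 μ ϖ hϖ r T hu).mp (h u))
      · rw [locInt_of_notMem267 𝔪 μ ϖ hϖ r ∅ (Finset.notMem_empty u),
          ← locInt_of_notMem267 𝔪 μ ϖ hϖ r T hu]
        exact h u
    refine ⟨h0, fun v hv u => ?_⟩
    by_cases huv : u = v
    · subst huv
      exact (locInt_of_mem267 𝔪 μ ϖ hϖ r T hv).mp (h u)
    · have hu : u ∉ ({v} : Finset (HeightOneSpectrum (𝓞 K))) := by
        rw [Finset.mem_singleton]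
        exact huv
      rw [locInt_of_notMem267 𝔪 μ ϖ hϖ r {v} hu,
        ← locInt_of_notMem267 𝔪 μ ϖ hϖ r ∅ (Finset.notMem_empty u)]
      exact h0 u
  · rintro ⟨h0, hT⟩ u
    by_cases hu : u ∈ T
    · exact (locInt_of_mem267 𝔪 μ ϖ hϖ r T hu).mpr (hT u hu u)
    · rw [locInt_of_notMem267 𝔪 μ ϖ hϖ r T hu,
        ← locInt_of_notMem267 𝔪 μ ϖ hϖ r ∅ (Finset.notMem_empty u)]
      exact h0 u

end Loc

/-! ## Primitive and congruent rows -/

section Prim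

variable {K : Type} [Field K] [NumberField K]

variable (𝔪 : Ideal (𝓞 K)) (μ : (FiniteAdeleRing (𝓞 K) K)ˣ)
  (ϖ : HeightOneSpectrum (𝓞 K) → (FiniteAdeleRing (𝓞 K) K)ˣ) (hμ : IsLevelIdele671 𝔪 μ)
  (hϖ : IsUnifFamily671 ϖ) (r : Fin 2 → Adl K)

include hϖ in
theorem norm_unif_lt_one267 (u : HeightOneSpectrum (𝓞 K)) : ‖compHom267 u (ϖ u)‖ < 1 := by
  rw [compHom267_apply, (hϖ u).1]
  apply inv_lt_one_of_one_lt₀
  have := HeightOneSpectrum.one_lt_absNorm u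
  exact_mod_cast this

include hμ hϖ

/-- **Part (1)**: the primitive congruent rows. -/
theorem prim_cong_iff267 :
    (IsPrimRow671 r ∧ Cong671 𝔪 r) ↔
      IsIntRow671 (rowDg671 (eA671 𝔪 μ ϖ ∅) (eB671 ϖ ∅) r) ∧
        ∀ v : HeightOneSpectrum (𝓞 K),
          ¬ IsIntRow671 (rowDg671 (eA671 𝔪 μ ϖ {v}) (eB671 ϖ {v}) r) := by
  simp only [isIntRow_iff267]
  have hm1 : ∀ u : HeightOneSpectrum (𝓞 K), u.asIdeal ∣ 𝔪 → ‖compHom267 u μ‖ < 1 :=
    fun u hu => hμ.2.1 u hu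
  have hm0 : ∀ u : HeightOneSpectrum (𝓞 K), ¬ u.asIdeal ∣ 𝔪 → compHom267 u μ = 1 :=
    fun u hu => hμ.2.2.1 u hu
  have hcl : ∀ (u : HeightOneSpectrum (𝓞 K)) (t : u.adicCompletion K),
      t ∈ idealClosure 𝔪 u ↔ ‖t‖ ≤ ‖compHom267 u μ‖ := by
    intro u t
    rw [hμ.1 u]
    exact Iff.rfl
  constructor
  · rintro ⟨hprim, hcong⟩
    have hloc : ∀ u : HeightOneSpectrum (𝓞 K), ‖(r 0).2 u‖ ≤ ‖compHom267 u μ‖ ∧
        ‖(r 1).2 u‖ ≤ 1 ∧ (u.asIdeal ∣ 𝔪 → ‖(r 1).2 u‖ = 1) := by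
      intro u
      have hmax : max ‖(r 0).2 u‖ ‖(r 1).2 u‖ = 1 := hprim u
      have hx1 : ‖(r 0).2 u‖ ≤ 1 := hmax ▸ le_max_left _ _
      have hy1 : ‖(r 1).2 u‖ ≤ 1 := hmax ▸ le_max_right _ _
      by_cases hum : u.asIdeal ∣ 𝔪
      · obtain ⟨t, ht, hxt⟩ := hcong u hum
        have htm : ‖t‖ ≤ ‖compHom267 u μ‖ := (hcl u t).mp ht
        have hx : ‖(r 0).2 u‖ ≤ ‖compHom267 u μ‖ := by
          rw [hxt, norm_mul]
          calc ‖t‖ * ‖(r 1).2 u‖ ≤ ‖compHom267 u μ‖ * 1 :=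
                mul_le_mul htm hy1 (norm_nonneg _) (norm_nonneg _)
            _ = ‖compHom267 u μ‖ := mul_one _
        refine ⟨hx, hy1, fun _ => ?_⟩
        rcases max_choice ‖(r 0).2 u‖ ‖(r 1).2 u‖ with h | h
        · rw [h] at hmax
          have := hm1 u hum
          linarith
        · rw [h] at hmax
          exact hmax
      · refine ⟨?_, hy1, fun h => absurd h hum⟩
        rw [hm0 u hum, norm_one]
        exact hx1
    refine ⟨fun u => (locInt_of_notMem267 𝔪 μ ϖ hϖ r ∅ (Finset.notMem_empty u)).mpr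
      ⟨(hloc u).1, (hloc u).2.1⟩, fun v hv => ?_⟩
    have hv' := hv v
    have hp := norm_unif_lt_one267 ϖ hϖ v
    by_cases hvm : v.asIdeal ∣ 𝔪
    · rw [locInt_of_mem_of_dvd267 𝔪 μ ϖ hϖ r {v} (Finset.mem_singleton_self v) hvm] at hv'
      have := (hloc v).2.2 hvm
      linarith [hv'.2]
    · rw [locInt_of_mem_of_not_dvd267 𝔪 μ ϖ hϖ r {v} (Finset.mem_singleton_self v) hvm,
        hm0 v hvm, norm_one, one_mul] at hv'
      have hmax : max ‖(r 0).2 v‖ ‖(r 1).2 v‖ = 1 := hprim v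
      have : max ‖(r 0).2 v‖ ‖(r 1).2 v‖ ≤ ‖compHom267 v (ϖ v)‖ := max_le hv'.1 hv'.2
      linarith
  · rintro ⟨h0, hno⟩
    have hE : ∀ u : HeightOneSpectrum (𝓞 K),
        ‖(r 0).2 u‖ ≤ ‖compHom267 u μ‖ ∧ ‖(r 1).2 u‖ ≤ 1 :=
      fun u => (locInt_of_notMem267 𝔪 μ ϖ hϖ r ∅ (Finset.notMem_empty u)).mp (h0 u)
    have hnot : ∀ v : HeightOneSpectrum (𝓞 K),
        ¬ LocInt267 (eA671 𝔪 μ ϖ {v}) (eB671 ϖ {v}) r v := by
      intro v hv
      apply hno v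
      intro u
      by_cases huv : u = v
      · subst huv
        exact hv
      · have hu : u ∉ ({v} : Finset (HeightOneSpectrum (𝓞 K))) := by
          rw [Finset.mem_singleton]
          exact huv
        rw [locInt_of_notMem267 𝔪 μ ϖ hϖ r {v} hu]
        exact hE u
    have hunif : ∀ v : HeightOneSpectrum (𝓞 K),
        ‖compHom267 v (ϖ v)‖ = ((Ideal.absNorm v.asIdeal : ℕ) : ℝ)⁻¹ := fun v => (hϖ v).1
    constructor
    · intro v
      show max ‖(r 0).2 v‖ ‖(r 1).2 v‖ = 1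
      have hn := hnot v
      by_cases hvm : v.asIdeal ∣ 𝔪
      · rw [locInt_of_mem_of_dvd267 𝔪 μ ϖ hϖ r {v} (Finset.mem_singleton_self v) hvm] at hn
        have hy : ‖(r 1).2 v‖ = 1 :=
          norm_eq_one_of267 v _ _ (hunif v) (hE v).2 (fun h => hn ⟨(hE v).1, h⟩)
        rw [hy]
        exact max_eq_right ((hE v).1.trans (hm1 v hvm).le)
      · rw [locInt_of_mem_of_not_dvd267 𝔪 μ ϖ hϖ r {v} (Finset.mem_singleton_self v) hvm,
          hm0 v hvm, norm_one, one_mul] at hn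
        have hx1 : ‖(r 0).2 v‖ ≤ 1 := by
          have := (hE v).1
          rwa [hm0 v hvm, norm_one] at this
        by_cases hx : ‖(r 0).2 v‖ ≤ ‖compHom267 v (ϖ v)‖
        · have hy : ‖(r 1).2 v‖ = 1 :=
            norm_eq_one_of267 v _ _ (hunif v) (hE v).2 (fun h => hn ⟨hx, h⟩)
          rw [hy]
          exact max_eq_right hx1
        · have hx' : ‖(r 0).2 v‖ = 1 := norm_eq_one_of267 v _ _ (hunif v) hx1 hx
          rw [hx']
          exact max_eq_left (hE v).2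
    · intro v hvm
      have hn := hnot v
      rw [locInt_of_mem_of_dvd267 𝔪 μ ϖ hϖ r {v} (Finset.mem_singleton_self v) hvm] at hn
      have hy : ‖(r 1).2 v‖ = 1 :=
        norm_eq_one_of267 v _ _ (hunif v) (hE v).2 (fun h => hn ⟨(hE v).1, h⟩)
      have hy0 : (r 1).2 v ≠ 0 := by
        intro h
        rw [h, norm_zero] at hy
        exact zero_ne_one hy
      refine ⟨(r 0).2 v / (r 1).2 v, ?_, ?_⟩
      · rw [hcl, norm_div, hy, div_one]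
        exact (hE v).1
      · rw [div_mul_cancel₀ _ hy0]

end Prim

/-! ## The leaf -/

/-- **LEAF SIEVE-ID**, proved. -/
theorem sieveIdC267 (K : Type) [Field K] [NumberField K] : SieveIdC K := by
  intro 𝔪 _ μ ϖ hμ hϖ r
  exact ⟨prim_cong_iff267 𝔪 μ ϖ hμ hϖ r, fun T => isIntRow_T_iff267 𝔪 μ ϖ hϖ r T⟩

end Fermat.Agent.LT.T7.H671.H267

end
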