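import Fermat.Agent.LT.T7.H40.ArchProjSpec

/-!
# Row LT, tower T7, leaf T7.L2.1.P1j `H40.AvgOrthC` (helper267, OFF-MAIN)

`avgOrthC267 K : Fermat.Agent.LT.T7.H40.AvgOrthC K`, verbatim against the byte-identical copy of
`T7/H40/ArchProjSpec.lean` (helper40).

`⟨ψ - mean ψ, χ⟩_F = ∫_F ψ χ̄ - ∫_F (∫_cube ψ(x Y_t) dt) χ̄(x) dμ`; Fubini on `F × cube` (finite
measures, bounded continuous integrand; the product σ-algebra is the Borel σ-algebra because
`ℝ^ι` is second countable), `χ(x Y_t) = χ(x)`, `TranslInnerC` for `Ψ = ψ χ̄` and `h = Y_t`, and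
`vol(cube) = 1`.
-/

set_option autoImplicit false

open AutomorphicForm IsDedekindDomain NumberField MeasureTheory
open scoped ComplexConjugate

noncomputable section

namespace Fermat.Agent.LT.T7.H40.H267

open Fermat.Agent.LT.H556 Fermat.Agent.LT.H556.A0 Fermat.Agent.LT.T7 Fermat.Agent.LT.T7.H40

attribute [local instance] Fermat.Agent.LT.T5.instMeasurableSpaceG

variable {K : Type} [Field K] [NumberField K]

theorem volume_cube267 : (volume : Measure (InfinitePlace K → ℝ)) (cube40 K) = 1 := by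
  unfold cube40
  rw [Real.volume_pi_Ico]
  simp

/-- A bounded continuous function is integrable for a finite measure. -/
theorem integrable_of_cont_bdd267 {X : Type*} [TopologicalSpace X] [MeasurableSpace X]
    [OpensMeasurableSpace X] (ν : Measure X) [IsFiniteMeasure ν] (f : X → ℂ)
    (hf : Continuous f) (C : ℝ) (hC : ∀ x, ‖f x‖ ≤ C) : Integrable f ν :=
  Integrable.of_bound hf.aestronglyMeasurable C (Filter.Eventually.of_forall hC)

/-- **LEAF AVG-ORTH**, proved. -/
theorem avgOrthC267 (K : Type) [Field K] [NumberField K] : AvgOrthC K := by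
  intro hT1 hTI hAC μ F r hFr hr 𝔑 Y hY ψ hψ χ hχ hχinv
  have hB : BorelSpace (G K) := ⟨rfl⟩
  have hfinF : IsFiniteMeasure (μ.restrict F) :=
    ⟨by rw [Measure.restrict_apply_univ]; exact hFr.finite⟩
  have hfinC : IsFiniteMeasure ((volume : Measure (InfinitePlace K → ℝ)).restrict (cube40 K)) :=
    ⟨by rw [Measure.restrict_apply_univ, volume_cube267]; exact ENNReal.one_lt_top⟩
  obtain ⟨Cψ, hCψ⟩ := hψ.bdd
  obtain ⟨Cχ, hCχ⟩ := hχ.bdd
  have hCψ0 : 0 ≤ Cψ := (norm_nonneg _).trans (hCψ 1)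
  -- the mean is a cusp function
  have hA := hAC hT1 𝔑 r Y hY ψ hψ
  obtain ⟨CA, hCA⟩ := hA.bdd
  -- the function `Ψ = ψ χ̄`
  set Ψ : G K → ℂ := fun x => ψ x * conj (χ x) with hΨ
  have hΨcont : Continuous Ψ := hψ.cont.mul (Complex.continuous_conj.comp hχ.cont)
  have hΨbdd : ∀ g : G K, ‖Ψ g‖ ≤ Cψ * Cχ := by
    intro g
    rw [hΨ]
    simp only
    rw [norm_mul, RCLike.norm_conj]
    exact mul_le_mul (hCψ g) (hCχ g) (norm_nonneg _) hCψ0
  have hΨleft : ∀ (γ : GL (Fin 2) K) (g : G K), Ψ (T5.ratG γ * g) = Ψ g := by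
    intro γ g
    rw [hΨ]
    simp only
    rw [hψ.aut.left_inv, hχ.aut.left_inv]
  have hΨray : ∀ g : G K, Ψ (g * r) = Ψ g := by
    intro g
    rw [hΨ]
    simp only
    rw [hψ.aut.ray, hχ.aut.ray]
  have htransl : ∀ t : InfinitePlace K → ℝ,
      ∫ x in F, ψ (x * Y t) * conj (χ x) ∂μ = ∫ x in F, Ψ x ∂μ := by
    intro t
    rw [← hTI μ F r hFr hr Ψ hΨcont ⟨_, hΨbdd⟩ hΨleft hΨray (Y t)]
    refine integral_congr_ae (Filter.Eventually.of_forall fun x => ?_)
    rw [hΨ]
    simp only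
    rw [hY.pos_inv χ hχinv t x]
  -- the integrand on the product
  set f : G K → (InfinitePlace K → ℝ) → ℂ := fun x t => ψ (x * Y t) * conj (χ x) with hf
  have hfcont : Continuous (Function.uncurry f) := by
    rw [hf]
    have h1 : Continuous (fun p : G K × (InfinitePlace K → ℝ) => p.1 * Y p.2) :=
      continuous_fst.mul (hY.cont.comp continuous_snd)
    exact (hψ.cont.comp h1).mul (Complex.continuous_conj.comp (hχ.cont.comp continuous_fst))
  have hfbdd : ∀ p : G K × (InfinitePlace K → ℝ), ‖Function.uncurry f p‖ ≤ Cψ * Cχ := by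
    rintro ⟨x, t⟩
    show ‖ψ (x * Y t) * conj (χ x)‖ ≤ Cψ * Cχ
    rw [norm_mul, RCLike.norm_conj]
    exact mul_le_mul (hCψ _) (hCχ x) (norm_nonneg _) hCψ0
  have hfint : Integrable (Function.uncurry f)
      ((μ.restrict F).prod ((volume : Measure (InfinitePlace K → ℝ)).restrict (cube40 K))) :=
    integrable_of_cont_bdd267 _ _ hfcont _ hfbdd
  -- the two pieces
  have hint1 : Integrable Ψ (μ.restrict F) := integrable_of_cont_bdd267 _ _ hΨcont _ hΨbdd
  have hint2 : Integrable (fun x => archAvg40 Y ψ x * conj (χ x)) (μ.restrict F) := by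
    refine integrable_of_cont_bdd267 _ _
      (hA.cont.mul (Complex.continuous_conj.comp hχ.cont)) (CA * Cχ) fun x => ?_
    rw [norm_mul, RCLike.norm_conj]
    exact mul_le_mul (hCA x) (hCχ x) (norm_nonneg _) ((norm_nonneg _).trans (hCA 1))
  have hmean : ∫ x in F, archAvg40 Y ψ x * conj (χ x) ∂μ = ∫ x in F, Ψ x ∂μ := by
    have e1 : ∀ x : G K, archAvg40 Y ψ x * conj (χ x) = ∫ t in cube40 K, f x t := by
      intro x
      rw [hf]
      simp only
      unfold archAvg40
      rw [integral_mul_const]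
    simp_rw [e1]
    rw [integral_integral_swap hfint]
    simp_rw [hf, htransl]
    rw [setIntegral_const]
    simp [Measure.real, volume_cube267]
  unfold T5.innerD
  have e2 : ∀ x : G K, (ψ x - archAvg40 Y ψ x) * conj (χ x)
      = Ψ x - archAvg40 Y ψ x * conj (χ x) := by
    intro x
    rw [hΨ]
    ring
  simp_rw [e2]
  rw [integral_sub hint1 hint2, hmean, sub_self]

end Fermat.Agent.LT.T7.H40.H267

end
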