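import Mathlib
import Fermat.Agent.LT.T7.H893.SupplyFamSpec

/-!
# Row LT, tower T7, leaf T7.L2.1.F7 `CommDownC` (helper267)

OFF-MAIN.  `R(f [] 0 0) = R(F₁ []) R(f₂)` commutes with the operators at `u` on the invariant
cusp functions.

* `rconv_conv267` : `R(φ₁ ⋆ φ₂) χ = R(φ₁) (R(φ₂) χ)` for continuous compactly supported
  `φ₁, φ₂`, a continuous `χ` and a left invariant measure which is finite on compacts (Fubini for
  continuous functions with compact support: no countability is needed).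
* `commDownC267 : CommDownC K K'` (frozen Prop of `T7/H893/SupplyFamSpec.lean`).
-/

set_option autoImplicit false

open AutomorphicForm IsDedekindDomain NumberField MeasureTheory
open scoped Pointwise

noncomputable section

namespace Fermat.Agent.LT.T7.H893.H267

open Fermat.Agent.LT.H556 Fermat.Agent.LT.H556.A0 Fermat.Agent.LT.T7 Fermat.Agent.LT.T7.H893

attribute [local instance] Fermat.Agent.LT.T5.instMeasurableSpaceG

section Fubini

variable {K : Type} [Field K] [NumberField K]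

theorem borelSpaceG267 : BorelSpace (G K) := ⟨rfl⟩

attribute [local instance] borelSpaceG267

/-- `R(φ₁ ⋆ φ₂) χ = R(φ₁) (R(φ₂) χ)`. -/
theorem rconv_conv267 (μ : Measure (G K)) [μ.IsMulLeftInvariant] [IsFiniteMeasureOnCompacts μ]
    {φ₁ φ₂ χ : G K → ℂ} (h₁ : Continuous φ₁) (s₁ : HasCompactSupport φ₁)
    (h₂ : Continuous φ₂) (s₂ : HasCompactSupport φ₂) (hχ : Continuous χ) (x : G K) :
    T5.Rconv μ (T5.conv μ φ₁ φ₂) χ x = T5.Rconv μ φ₁ (T5.Rconv μ φ₂ χ) x := by
  unfold T5.Rconv T5.conv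
  have e1 : (fun g : G K => (∫ y, φ₁ y * φ₂ (y⁻¹ * g) ∂μ) * χ (x * g))
      = fun g : G K => ∫ y, φ₁ y * φ₂ (y⁻¹ * g) * χ (x * g) ∂μ := by
    funext g
    rw [integral_mul_const]
  rw [e1]
  have hc : Continuous (Function.uncurry
      (fun (g y : G K) => φ₁ y * φ₂ (y⁻¹ * g) * χ (x * g))) := by
    unfold Function.uncurry
    fun_prop
  have hs : HasCompactSupport (Function.uncurry
      (fun (g y : G K) => φ₁ y * φ₂ (y⁻¹ * g) * χ (x * g))) := by
    have hK : IsCompact ((tsupport φ₁ * tsupport φ₂) ×ˢ tsupport φ₁) :=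
      (s₁.isCompact.mul s₂.isCompact).prod s₁.isCompact
    refine HasCompactSupport.intro hK ?_
    rintro ⟨g, y⟩ hgy
    simp only [Function.uncurry_apply_pair]
    by_cases hy : φ₁ y = 0
    · simp [hy]
    by_cases hg : φ₂ (y⁻¹ * g) = 0
    · simp [hg]
    exfalso
    apply hgy
    refine ⟨?_, subset_tsupport _ hy⟩
    refine ⟨y, subset_tsupport _ hy, y⁻¹ * g, subset_tsupport _ hg, ?_⟩
    simp
  rw [integral_integral_swap_of_hasCompactSupport hc hs]
  congr 1
  funext y
  have e2 : (fun g : G K => φ₁ y * φ₂ (y⁻¹ * g) * χ (x * g))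
      = fun g : G K => φ₁ y * (φ₂ (y⁻¹ * g) * χ (x * g)) := by
    funext g
    ring
  rw [e2, integral_const_mul]
  congr 1
  have e3 := integral_mul_left_eq_self (μ := μ) (fun g : G K => φ₂ (y⁻¹ * g) * χ (x * g)) y
  rw [← e3]
  congr 1
  funext g
  simp [mul_assoc]

end Fubini

section Main

variable (K K' : Type) [Field K] [NumberField K] [Field K'] [NumberField K'] [Algebra K K']

attribute [local instance] borelSpaceG267

theorem regL_zero267 {K : Type} [Field K] [NumberField K] (w : HeightOneSpectrum (𝓞 K))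
    (z : G K) (H : Finset (G K)) (φ : G K → ℂ) : regL w z H 0 0 φ = φ := by
  funext y
  simp [regL, ltr]

theorem continuous_iwOp267 {K : Type} [Field K] [NumberField K] (w : HeightOneSpectrum (𝓞 K))
    (H : Finset (G K)) {ψ : G K → ℂ} (hψ : Continuous ψ) : Continuous (iwOp w H ψ) := by
  unfold iwOp
  refine continuous_const.mul (continuous_finsetSum _ fun h _ => ?_)
  exact hψ.comp (continuous_id.mul continuous_const)

theorem continuous_shiftOp267 {K : Type} [Field K] [NumberField K] (z : G K) (k : ℤ)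
    {ψ : G K → ℂ} (hψ : Continuous ψ) : Continuous (shiftOp z k ψ) := by
  unfold shiftOp
  exact hψ.comp (continuous_id.mul continuous_const)

/-- **LEAF T7.L2.1.F7 = COMM-DOWN.** -/
theorem commDownC267 : CommDownC K K' := by
  intro ℓ Φ B hB g _ E hE ψ hψ H z hH hz
  have hhaar : B.R.μ.IsHaarMeasure := hB.frame.frame.haar
  have t1 := hE.dn1_test [] (by simp)
  have t2 := hE.dn2_test
  have hdown : E.down B [] 0 0 = T5.conv B.R.μ (E.F₁ []) E.f₂ := by
    unfold L2Pre.down
    rw [regL_zero267]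
  -- the factorisation
  have fac : ∀ χ : G K → ℂ, Continuous χ →
      T5.Rconv B.R.μ (E.down B [] 0 0) χ
        = T5.Rconv B.R.μ (E.F₁ []) (T5.Rconv B.R.μ E.f₂ χ) := by
    intro χ hχ
    funext x
    rw [hdown]
    exact rconv_conv267 B.R.μ t1.cont t1.supp t2.cont t2.supp hχ x
  have hψc : Continuous ψ := hψ.cusp.cont
  have hw2 := hE.dn2_wfn ψ hψ
  have c2 := hE.dn2_comm ψ hψ H z hH hz
  have c1 := hE.dn1_comm _ hw2 H z hH hz
  have fψ := fac ψ hψc
  refine ⟨fun x => ?_, fun k x => ?_⟩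
  · rw [fac _ (continuous_iwOp267 B.u H hψc)]
    have e : T5.Rconv B.R.μ E.f₂ (iwOp B.u H ψ) = iwOp B.u H (T5.Rconv B.R.μ E.f₂ ψ) :=
      funext c2.1
    rw [e, c1.1 x, fψ]
  · rw [fac _ (continuous_shiftOp267 z k hψc)]
    have e : T5.Rconv B.R.μ E.f₂ (shiftOp z k ψ) = shiftOp z k (T5.Rconv B.R.μ E.f₂ ψ) :=
      funext (c2.2 k)
    rw [e, c1.2 k x, fψ]

end Main

end Fermat.Agent.LT.T7.H893.H267

end
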