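import Mathlib
import Fermat.Agent.LT.T7.H267.CommDown

/-!
# Row LT, tower T7, node T7.L2.1.F (helper267): translates and convolution operators

OFF-MAIN.  One field.  For a left invariant measure which is finite on compacts, a continuous
compactly supported `φ` and a continuous `ψ`:

    R(ltr b φ) ψ = (R(φ) ψ)(· b),   R(iwL w H φ) ψ = iwOp w H (R(φ) ψ),
    R(regL w z H k m φ) ψ = shiftOp z k ((iwOp w H)^[m] (R(φ) ψ)),

and the translates `ltr`, `lsum`, `iwL`, `regL` of a continuous compactly supported function are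
continuous and compactly supported.
-/

set_option autoImplicit false

open AutomorphicForm IsDedekindDomain NumberField MeasureTheory
open scoped Pointwise

noncomputable section

namespace Fermat.Agent.LT.T7.H893.H267

open Fermat.Agent.LT.H556 Fermat.Agent.LT.H556.A0 Fermat.Agent.LT.T7 Fermat.Agent.LT.T7.H893

attribute [local instance] Fermat.Agent.LT.T5.instMeasurableSpaceG
attribute [local instance] borelSpaceG267

variable {K : Type} [Field K] [NumberField K]

/-! ## Regularity of the translates -/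

theorem continuous_ltr267 (b : G K) {φ : G K → ℂ} (h : Continuous φ) : Continuous (ltr b φ) :=
  h.comp (continuous_const.mul continuous_id)

theorem hasCompactSupport_ltr267 (b : G K) {φ : G K → ℂ} (h : HasCompactSupport φ) :
    HasCompactSupport (ltr b φ) :=
  h.comp_homeomorph (Homeomorph.mulLeft b⁻¹)

theorem continuous_lsum267 (H : Finset (G K)) {φ : G K → ℂ} (h : Continuous φ) :
    Continuous (lsum H φ) := by
  unfold lsum
  exact continuous_finsetSum _ fun b _ => h.comp (continuous_const.mul continuous_id)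

theorem hasCompactSupport_lsum267 (H : Finset (G K)) {φ : G K → ℂ} (h : HasCompactSupport φ) :
    HasCompactSupport (lsum H φ) := by
  classical
  induction H using Finset.induction_on with
  | empty =>
    have e : lsum (∅ : Finset (G K)) φ = 0 := by
      funext y
      simp [lsum]
    rw [e]
    exact HasCompactSupport.zero
  | insert a s ha ih =>
    have e : lsum (insert a s) φ = ltr a φ + lsum s φ := by
      funext y
      simp [lsum, ltr, Finset.sum_insert ha]
    rw [e]
    exact (hasCompactSupport_ltr267 a h).add ih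

theorem iwL_eq267 (w : HeightOneSpectrum (𝓞 K)) (H : Finset (G K)) (φ : G K → ℂ) :
    iwL w H φ
      = (fun _ => ((Real.sqrt (Ideal.absNorm w.asIdeal : ℝ) : ℝ) : ℂ)⁻¹) * lsum H φ := rfl

theorem continuous_iwL267 (w : HeightOneSpectrum (𝓞 K)) (H : Finset (G K)) {φ : G K → ℂ}
    (h : Continuous φ) : Continuous (iwL w H φ) := by
  rw [iwL_eq267]
  exact continuous_const.mul (continuous_lsum267 H h)

theorem hasCompactSupport_iwL267 (w : HeightOneSpectrum (𝓞 K)) (H : Finset (G K))
    {φ : G K → ℂ} (h : HasCompactSupport φ) : HasCompactSupport (iwL w H φ) := by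
  rw [iwL_eq267]
  exact (hasCompactSupport_lsum267 H h).mul_left

theorem continuous_iwL_iterate267 (w : HeightOneSpectrum (𝓞 K)) (H : Finset (G K))
    {φ : G K → ℂ} (h : Continuous φ) (m : ℕ) : Continuous ((iwL w H)^[m] φ) := by
  induction m with
  | zero => simpa using h
  | succ m ih =>
    rw [Function.iterate_succ_apply']
    exact continuous_iwL267 w H ih

theorem hasCompactSupport_iwL_iterate267 (w : HeightOneSpectrum (𝓞 K)) (H : Finset (G K))
    {φ : G K → ℂ} (h : HasCompactSupport φ) (m : ℕ) :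
    HasCompactSupport ((iwL w H)^[m] φ) := by
  induction m with
  | zero => simpa using h
  | succ m ih =>
    rw [Function.iterate_succ_apply']
    exact hasCompactSupport_iwL267 w H ih

theorem continuous_regL267 (w : HeightOneSpectrum (𝓞 K)) (z : G K) (H : Finset (G K)) (k : ℤ)
    (m : ℕ) {φ : G K → ℂ} (h : Continuous φ) : Continuous (regL w z H k m φ) :=
  continuous_ltr267 _ (continuous_iwL_iterate267 w H h m)

theorem hasCompactSupport_regL267 (w : HeightOneSpectrum (𝓞 K)) (z : G K) (H : Finset (G K))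
    (k : ℤ) (m : ℕ) {φ : G K → ℂ} (h : HasCompactSupport φ) :
    HasCompactSupport (regL w z H k m φ) :=
  hasCompactSupport_ltr267 _ (hasCompactSupport_iwL_iterate267 w H h m)

/-! ## The operators of the translates -/

/-- `R(ltr b φ) ψ = (R(φ) ψ)(· b)`. -/
theorem rconv_ltr267 (μ : Measure (G K)) [μ.IsMulLeftInvariant] (b : G K) (φ ψ : G K → ℂ)
    (x : G K) : T5.Rconv μ (ltr b φ) ψ x = T5.Rconv μ φ ψ (x * b) := by
  unfold T5.Rconv ltr
  have e := integral_mul_left_eq_self (μ := μ) (fun y : G K => φ (b⁻¹ * y) * ψ (x * y)) b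
  rw [← e]
  congr 1
  funext y
  simp [mul_assoc]

/-- `R(lsum H φ) ψ = cosetOp H (R(φ) ψ)`. -/
theorem rconv_lsum267 (μ : Measure (G K)) [μ.IsMulLeftInvariant] [IsFiniteMeasureOnCompacts μ]
    (H : Finset (G K)) {φ ψ : G K → ℂ} (hφ : Continuous φ) (sφ : HasCompactSupport φ)
    (hψ : Continuous ψ) (x : G K) :
    T5.Rconv μ (lsum H φ) ψ x = cosetOp H (T5.Rconv μ φ ψ) x := by
  have hint : ∀ b ∈ H, Integrable (fun y : G K => ltr b φ y * ψ (x * y)) μ := fun b _ =>
    ((continuous_ltr267 b hφ).mul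
      (hψ.comp (continuous_const.mul continuous_id))).integrable_of_hasCompactSupport
      (hasCompactSupport_ltr267 b sφ).mul_right
  have e : ∀ b : G K, T5.Rconv μ φ ψ (x * b) = ∫ y, ltr b φ y * ψ (x * y) ∂μ := fun b =>
    (rconv_ltr267 μ b φ ψ x).symm
  unfold cosetOp
  simp only [e]
  rw [← integral_finsetSum _ hint]
  unfold T5.Rconv lsum ltr
  congr 1
  funext y
  rw [Finset.sum_mul]

/-- `R(iwL w H φ) ψ = iwOp w H (R(φ) ψ)`. -/
theorem rconv_iwL267 (μ : Measure (G K)) [μ.IsMulLeftInvariant] [IsFiniteMeasureOnCompacts μ]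
    (w : HeightOneSpectrum (𝓞 K)) (H : Finset (G K)) {φ ψ : G K → ℂ} (hφ : Continuous φ)
    (sφ : HasCompactSupport φ) (hψ : Continuous ψ) (x : G K) :
    T5.Rconv μ (iwL w H φ) ψ x = iwOp w H (T5.Rconv μ φ ψ) x := by
  have e1 : iwOp w H (T5.Rconv μ φ ψ) x
      = ((Real.sqrt (Ideal.absNorm w.asIdeal : ℝ) : ℝ) : ℂ)⁻¹ * cosetOp H (T5.Rconv μ φ ψ) x :=
    rfl
  rw [e1, ← rconv_lsum267 μ H hφ sφ hψ x]
  unfold T5.Rconv
  rw [← integral_const_mul]
  congr 1
  funext y
  rw [iwL_eq267]
  simp only [Pi.mul_apply]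
  ring

/-- `R((iwL w H)^[m] φ) ψ = (iwOp w H)^[m] (R(φ) ψ)`. -/
theorem rconv_iwL_iterate267 (μ : Measure (G K)) [μ.IsMulLeftInvariant]
    [IsFiniteMeasureOnCompacts μ] (w : HeightOneSpectrum (𝓞 K)) (H : Finset (G K))
    {φ ψ : G K → ℂ} (hφ : Continuous φ) (sφ : HasCompactSupport φ) (hψ : Continuous ψ)
    (m : ℕ) :
    T5.Rconv μ ((iwL w H)^[m] φ) ψ = (iwOp w H)^[m] (T5.Rconv μ φ ψ) := by
  induction m with
  | zero => rfl
  | succ m ih =>
    rw [Function.iterate_succ_apply', Function.iterate_succ_apply', ← ih]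
    funext x
    exact rconv_iwL267 μ w H (continuous_iwL_iterate267 w H hφ m)
      (hasCompactSupport_iwL_iterate267 w H sφ m) hψ x

/-- `R(regL w z H k m φ) ψ = shiftOp z k ((iwOp w H)^[m] (R(φ) ψ))`. -/
theorem rconv_regL267 (μ : Measure (G K)) [μ.IsMulLeftInvariant] [IsFiniteMeasureOnCompacts μ]
    (w : HeightOneSpectrum (𝓞 K)) (z : G K) (H : Finset (G K)) (k : ℤ) (m : ℕ)
    {φ ψ : G K → ℂ} (hφ : Continuous φ) (sφ : HasCompactSupport φ) (hψ : Continuous ψ) :
    T5.Rconv μ (regL w z H k m φ) ψ = shiftOp z k ((iwOp w H)^[m] (T5.Rconv μ φ ψ)) := by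
  funext x
  unfold regL
  rw [rconv_ltr267, rconv_iwL_iterate267 μ w H hφ sφ hψ m]
  rfl

end Fermat.Agent.LT.T7.H893.H267

end
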