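import Mathlib
import Fermat.Agent.LT.T7.H267.RconvOps
import Fermat.Agent.LT.T7.H468.OpsClass
import Fermat.Agent.LT.T7.H83.IwKit

/-!
# Row LT, tower T7, leaf T7.L2.1.F5 `OpDownC` (helper267, SPARE of row 2252)

OFF-MAIN.  `R(f X k m) ψ = X(Ĉ) R(f [] 0 0) (Z^k 𝒰^m ψ)` on the invariant eigenfunctions, for
EVERY choice of the coset system and of the scalar uniformiser at `u`.

Assets used (byte copies): `H468.opsClassC468 : SD534.OpsClassC K` (helper468: `Z^k`, `𝒰` preserve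
the classes), `H83.iwOp_iterate_indep83` (helper83: independence of the coset system),
`rconv_conv267`, `rconv_regL267` (Fubini and left invariance).

* `shiftOp_indep267` : on Iwahori-invariant functions `shiftOp z k` does not depend on the
  scalar uniformiser `z`.
* `opDownC267 : OpDownC K K'` (frozen Prop of `T7/H893/SupplyFamSpec.lean`).
-/

set_option autoImplicit false

open AutomorphicForm IsDedekindDomain NumberField MeasureTheory

noncomputable section

namespace Fermat.Agent.LT.T7.H893.H267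

open Fermat.Agent.LT.H556 Fermat.Agent.LT.H556.A0 Fermat.Agent.LT.T7 Fermat.Agent.LT.T7.H893
open Fermat.Agent.LT.H129

attribute [local instance] Fermat.Agent.LT.T5.instMeasurableSpaceG
attribute [local instance] borelSpaceG267

section OneField

variable {K : Type} [Field K] [NumberField K]

/-- The elements supported at `u` which lie in the Iwahori subgroup at `u`. -/
def iwLocSub267 (u : HeightOneSpectrum (𝓞 K)) : Subgroup (G K) where
  carrier := {h | IsLocalAtFin u h ∧ T5.InIwahori u h}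
  one_mem' := ⟨isLocalAtFin_one129 u, H83.inIwahori_one83 u⟩
  mul_mem' := fun ha hb => ⟨isLocalAtFin_mul129 ha.1 hb.1, H83.inIwahori_mul83 u ha.2 hb.2⟩
  inv_mem' := fun ha => ⟨isLocalAtFin_inv129 ha.1, H83.inIwahori_inv83 u ha.2⟩

theorem mem_iwLocSub267 (u : HeightOneSpectrum (𝓞 K)) (h : G K) :
    h ∈ iwLocSub267 u ↔ IsLocalAtFin u h ∧ T5.InIwahori u h := Iff.rfl

/-- The component at `u` of the quotient of two scalar uniformisers. -/
theorem finComp_ratio267 {u : HeightOneSpectrum (𝓞 K)} {z z' : G K}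
    (hz : IsScalarUniformizerAt u z) (hz' : IsScalarUniformizerAt u z') :
    ∃ e : u.adicCompletion K, Valued.v e = 1 ∧
      finComp u (z⁻¹ * z') = Matrix.diagonal (fun _ => e) := by
  obtain ⟨-, c, hc, hzc⟩ := hz
  obtain ⟨-, c', hc', hzc'⟩ := hz'
  have hc0 : c ≠ 0 := by
    intro h0
    rw [h0, map_zero] at hc
    exact WithZero.exp_ne_zero.symm hc
  refine ⟨c⁻¹ * c', ?_, ?_⟩
  · rw [map_mul, map_inv₀, hc, hc']
    exact inv_mul_cancel₀ WithZero.exp_ne_zero
  · have e1 : finComp u z * finComp u (z⁻¹ * z') = finComp u z' := by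
      rw [← coe_finCompHom129, ← coe_finCompHom129, ← coe_finCompHom129, ← Units.val_mul,
        ← map_mul]
      congr 2
      group
    rw [hzc, hzc'] at e1
    ext i j
    have e2 := congrFun (congrFun e1 i) j
    rw [Matrix.diagonal_mul] at e2
    have e3 : finComp u (z⁻¹ * z') i j = c⁻¹ * (c * finComp u (z⁻¹ * z') i j) := by
      rw [← mul_assoc, inv_mul_cancel₀ hc0, one_mul]
    rw [e3, e2]
    by_cases hij : i = j
    · subst hij
      simp
    · simp [Matrix.diagonal_apply_ne _ hij]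

theorem ratio_mem267 {u : HeightOneSpectrum (𝓞 K)} {z z' : G K}
    (hz : IsScalarUniformizerAt u z) (hz' : IsScalarUniformizerAt u z') :
    z⁻¹ * z' ∈ iwLocSub267 u := by
  have int : ∀ {a b : G K}, IsScalarUniformizerAt u a → IsScalarUniformizerAt u b →
      IsIntegralAt u (a⁻¹ * b) := by
    intro a b ha hb i j
    obtain ⟨e, he, hab⟩ := finComp_ratio267 ha hb
    rw [hab, HeightOneSpectrum.mem_adicCompletionIntegers]
    by_cases hij : i = j
    · subst hij
      simp [he]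
    · simp [Matrix.diagonal_apply_ne _ hij]
  refine ⟨isLocalAtFin_mul129 (isLocalAtFin_inv129 hz.1) hz'.1, int hz hz', ?_, ?_⟩
  · have e : (z⁻¹ * z')⁻¹ = z'⁻¹ * z := by group
    rw [e]
    exact int hz' hz
  · obtain ⟨e, -, hab⟩ := finComp_ratio267 hz hz'
    rw [hab]
    simp

/-- **Independence of the scalar uniformiser.** -/
theorem shiftOp_indep267 {u : HeightOneSpectrum (𝓞 K)} {z z' : G K}
    (hz : IsScalarUniformizerAt u z) (hz' : IsScalarUniformizerAt u z') {ψ : G K → ℂ}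
    (hψ : IsIwInv 1 (fun _ => u) ψ) (k : ℤ) : shiftOp z k ψ = shiftOp z' k ψ := by
  funext x
  unfold shiftOp
  have hmem : (z⁻¹ * z') ^ k ∈ iwLocSub267 u := Subgroup.zpow_mem _ (ratio_mem267 hz hz') k
  rw [mem_iwLocSub267] at hmem
  have hcomm : Commute z (z⁻¹ * z') := (H468.central_scalar468 hz (z⁻¹ * z')).symm
  have e : z' ^ k = z ^ k * (z⁻¹ * z') ^ k := by
    rw [← hcomm.mul_zpow]
    congr 1
    group
  rw [e, ← mul_assoc]
  exact (hψ _ hmem.1.1 (fun v hv => hmem.1.2 v (hv 0 Nat.one_pos)) (fun _ _ => hmem.2)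
    (x * z ^ k)).symm

/-- The iterates of `𝒰` preserve the classes. -/
theorem iwOp_iterate_inCls267 {𝔫 : Ideal (𝓞 K)} {r : G K} {u : HeightOneSpectrum (𝓞 K)}
    {H : Finset (G K)} {z : G K} (ops : SD534.IsOpsClass 𝔫 r u H z) {c : EigData K}
    {ψ : G K → ℂ} (hψ : IsEigFn 𝔫 r 1 (fun _ => u) ψ c) (m : ℕ) :
    IsEigFn 𝔫 r 1 (fun _ => u) ((iwOp u H)^[m] ψ) c := by
  induction m with
  | zero => simpa using hψ
  | succ m ih =>
    rw [Function.iterate_succ_apply']
    exact ops.iw c _ ih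

end OneField

section Main

variable (K K' : Type) [Field K] [NumberField K] [Field K'] [NumberField K'] [Algebra K K']

/-- **LEAF T7.L2.1.F5 = OP-DOWN.** -/
theorem opDownC267 : OpDownC K K' := by
  intro ℓ Φ B hB g _ E hE X k m hX ψ c C hψ hBC H z hH hz x
  have hhaar : B.R.μ.IsHaarMeasure := hB.frame.frame.haar
  have t1 := hE.dn1_test X hX
  have t10 := hE.dn1_test [] (by simp)
  have t2 := hE.dn2_test
  have opsE : SD534.IsOpsClass E.𝔫 B.R.r B.u E.H E.z :=
    H468.opsClassC468 (K := K) E.𝔫 B.R.r B.u E.H E.z hE.level_ne hB.frame.ray hE.u_level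
      hE.sys hE.unif
  have opsH : SD534.IsOpsClass E.𝔫 B.R.r B.u H z :=
    H468.opsClassC468 (K := K) E.𝔫 B.R.r B.u H z hE.level_ne hB.frame.ray hE.u_level hH hz
  have hψc : Continuous ψ := hψ.inv.cusp.cont
  -- the eigenfunction `R(f₂) ψ` and its images
  have h2 : IsEigFn E.𝔫 B.R.r 1 (fun _ => B.u) (T5.Rconv B.R.μ E.f₂ ψ) c :=
    hE.dn2_class ψ c hψ
  have hχ : IsEigFn E.𝔫 B.R.r 1 (fun _ => B.u)
      (shiftOp E.z k ((iwOp B.u E.H)^[m] (T5.Rconv B.R.μ E.f₂ ψ))) c :=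
    opsE.shift c _ k (iwOp_iterate_inCls267 opsE h2 m)
  -- the left side
  have lhs : T5.Rconv B.R.μ (E.down B X k m) ψ x
      = T5.Rconv B.R.μ (E.F₁ X)
          (shiftOp E.z k ((iwOp B.u E.H)^[m] (T5.Rconv B.R.μ E.f₂ ψ))) x := by
    unfold L2Pre.down
    rw [rconv_conv267 B.R.μ t1.cont t1.supp (continuous_regL267 B.u E.z E.H k m t2.cont)
      (hasCompactSupport_regL267 B.u E.z E.H k m t2.supp) hψc x,
      rconv_regL267 B.R.μ B.u E.z E.H k m t2.cont t2.supp hψc]
  -- the iterates commute with `R(f₂)`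
  have iter : ∀ j : ℕ, T5.Rconv B.R.μ E.f₂ ((iwOp B.u H)^[j] ψ)
      = (iwOp B.u H)^[j] (T5.Rconv B.R.μ E.f₂ ψ) := by
    intro j
    induction j with
    | zero => rfl
    | succ j ih =>
      rw [Function.iterate_succ_apply', Function.iterate_succ_apply', ← ih]
      funext y
      exact (hE.dn2_comm _ (iwOp_iterate_inCls267 opsH hψ j).inv H z hH hz).1 y
  have hm : IsEigFn E.𝔫 B.R.r 1 (fun _ => B.u) ((iwOp B.u H)^[m] ψ) c :=
    iwOp_iterate_inCls267 opsH hψ m
  have hψ' : IsEigFn E.𝔫 B.R.r 1 (fun _ => B.u) (shiftOp z k ((iwOp B.u H)^[m] ψ)) c :=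
    opsH.shift c _ k hm
  -- the right side
  have hdown : E.down B [] 0 0 = T5.conv B.R.μ (E.F₁ []) E.f₂ := by
    unfold L2Pre.down
    rw [regL_zero267]
  have key : T5.Rconv B.R.μ E.f₂ (shiftOp z k ((iwOp B.u H)^[m] ψ))
      = shiftOp E.z k ((iwOp B.u E.H)^[m] (T5.Rconv B.R.μ E.f₂ ψ)) := by
    have s1 : T5.Rconv B.R.μ E.f₂ (shiftOp z k ((iwOp B.u H)^[m] ψ))
        = shiftOp z k (T5.Rconv B.R.μ E.f₂ ((iwOp B.u H)^[m] ψ)) :=
      funext ((hE.dn2_comm _ hm.inv H z hH hz).2 k)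
    have s2 : (iwOp B.u H)^[m] (T5.Rconv B.R.μ E.f₂ ψ)
        = (iwOp B.u E.H)^[m] (T5.Rconv B.R.μ E.f₂ ψ) :=
      H83.iwOp_iterate_indep83 B.u hH hE.sys
        (H83.isIwInvAt_of_isIwInv83 h2.inv.iw (j := 0) Nat.one_pos) m
    rw [s1, iter m, s2]
    exact shiftOp_indep267 hz hE.unif (iwOp_iterate_inCls267 opsE h2 m).inv.iw k
  have rhs : T5.Rconv B.R.μ (E.down B [] 0 0) (shiftOp z k ((iwOp B.u H)^[m] ψ)) x
      = T5.Rconv B.R.μ (E.F₁ [])
          (shiftOp E.z k ((iwOp B.u E.H)^[m] (T5.Rconv B.R.μ E.f₂ ψ))) x := by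
    rw [hdown, rconv_conv267 B.R.μ t10.cont t10.supp t2.cont t2.supp hψ'.inv.cusp.cont x, key]
  rw [lhs, rhs]
  exact hE.dn1_op X hX _ c C hχ hBC x

end Main

end Fermat.Agent.LT.T7.H893.H267

end
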