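import Mathlib
import Fermat.Agent.LT.T6.H267.InstExt

/-!
# Row LT, tower T7, leaf UD.1 `UpInertC341` (helper267, SPARE): the topological kit

OFF-MAIN.  Ring homomorphisms between completions of number fields at finite places which
multiply the valuation by a power `e > 0`: continuity, inducing, uniqueness (density of the
number field), and the same for `GL₂`.  Mathlib + `T6/Spec.lean` only (the import of
`T6/H267/InstExt.lean` is for the kit on the unique prime).
-/

set_option autoImplicit false

open IsDedekindDomain NumberField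

noncomputable section

namespace Fermat.Agent.LT.T7.UD341.H267

section Completions

variable {K K' : Type} [Field K] [NumberField K] [Field K'] [NumberField K']
variable {v : HeightOneSpectrum (𝓞 K)} {w : HeightOneSpectrum (𝓞 K')}

/-- A ring homomorphism of completions with `v(f x) = v(x)^e`, `e > 0`, is uniformly
continuous. -/
theorem uniformContinuous_of_val267 (f : v.adicCompletion K →+* w.adicCompletion K') (e : ℕ)
    (he : 0 < e) (hf : ∀ x, Valued.v (f x) = Valued.v x ^ e) : UniformContinuous f := by
  refine uniformContinuous_of_continuousAt_zero f ?_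
  rw [ContinuousAt, map_zero, (Valued.hasBasis_nhds_zero _ _).tendsto_iff
    (Valued.hasBasis_nhds_zero _ _)]
  intro γ _
  -- an element `z` of `K_v` with `v(z) ≤ 1` and `v(z)^e ≤ γ`
  obtain ⟨z', hz'⟩ := HeightOneSpectrum.valuedAdicCompletion_surjective K' w
    (MonoidWithZeroHom.ValueGroup₀.embedding γ.val)
  have hγ0 : MonoidWithZeroHom.ValueGroup₀.embedding γ.val ≠ (0 : WithZero (Multiplicative ℤ)) := by
    simp
  obtain ⟨a, ha⟩ : ∃ a : ℤ, MonoidWithZeroHom.ValueGroup₀.embedding γ.val
      = (WithZero.exp a : WithZero (Multiplicative ℤ)) := by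
    refine ⟨WithZero.log (MonoidWithZeroHom.ValueGroup₀.embedding γ.val), ?_⟩
    rw [WithZero.exp_log hγ0]
  obtain ⟨z, hz⟩ := HeightOneSpectrum.valuedAdicCompletion_surjective K v
    (WithZero.exp (-|a|))
  have hz0 : Valued.v z ≠ 0 := by
    rw [hz]
    simp
  refine ⟨Units.mk0 (Valued.v.restrict z) ?_, trivial, fun x hx => ?_⟩
  · rw [Ne, ← MonoidWithZeroHom.ValueGroup₀.embedding_inj]
    simpa using hz0
  simp only [Set.mem_ofPred_eq, Units.val_mk0] at hx ⊢
  rw [Valuation.restrict_lt_iff_lt_embedding] at hx ⊢
  rw [Valuation.embedding_restrict, hz] at hx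
  rw [hf, ha]
  calc Valued.v x ^ e ≤ Valued.v x ^ 1 := by
        refine pow_le_pow_of_le_one zero_le ?_ he
        exact hx.le.trans (by rw [← WithZero.exp_zero, WithZero.exp_le_exp]; simp)
    _ = Valued.v x := pow_one _
    _ < WithZero.exp (-|a|) := hx
    _ ≤ WithZero.exp a := by
        rw [WithZero.exp_le_exp]
        exact neg_abs_le a

theorem continuous_of_val267 (f : v.adicCompletion K →+* w.adicCompletion K') (e : ℕ)
    (he : 0 < e) (hf : ∀ x, Valued.v (f x) = Valued.v x ^ e) : Continuous f :=
  (uniformContinuous_of_val267 f e he hf).continuous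

/-- A ring homomorphism of completions with `v(f x) = v(x)^e`, `e > 0`, is inducing. -/
theorem isUniformInducing_of_val267 (f : v.adicCompletion K →+* w.adicCompletion K') (e : ℕ)
    (he : 0 < e) (hf : ∀ x, Valued.v (f x) = Valued.v x ^ e) : IsUniformInducing f := by
  rw [isUniformInducing_iff']
  refine ⟨uniformContinuous_of_val267 f e he hf, ?_⟩
  rw [((Valued.hasBasis_uniformity (w.adicCompletion K') _).comap _).le_basis_iff
    (Valued.hasBasis_uniformity (v.adicCompletion K) _)]
  intro γ _
  obtain ⟨z, hz⟩ := HeightOneSpectrum.valuedAdicCompletion_surjective K v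
    (MonoidWithZeroHom.ValueGroup₀.embedding γ.val)
  have hz0 : Valued.v z ≠ 0 := by
    rw [hz]
    simp
  have hz' : Valued.v (f z) ≠ 0 := by
    rw [hf]
    exact pow_ne_zero _ hz0
  refine ⟨Units.mk0 (Valued.v.restrict (f z)) ?_, trivial, ?_⟩
  · rw [Ne, ← MonoidWithZeroHom.ValueGroup₀.embedding_inj]
    simpa using hz'
  rintro ⟨x, y⟩ hxy
  simp only [Set.mem_preimage, Prod.map_apply, Set.mem_ofPred_eq, Units.val_mk0] at hxy ⊢
  rw [Valuation.restrict_lt_iff_lt_embedding] at hxy ⊢
  rw [Valuation.embedding_restrict, ← map_sub, hf, hf, hz] at hxy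
  exact lt_of_pow_lt_pow_left₀ _ zero_le hxy

theorem isInducing_of_val267 (f : v.adicCompletion K →+* w.adicCompletion K') (e : ℕ)
    (he : 0 < e) (hf : ∀ x, Valued.v (f x) = Valued.v x ^ e) : Topology.IsInducing f :=
  (isUniformInducing_of_val267 f e he hf).isInducing

/-- Two continuous ring homomorphisms of the completion which agree on the number field are
equal. -/
theorem ringHom_eq_of_rat267 (f g : v.adicCompletion K →+* w.adicCompletion K')
    (hf : Continuous f) (hg : Continuous g)
    (h : ∀ x : K, f (algebraMap K (v.adicCompletion K) x)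
      = g (algebraMap K (v.adicCompletion K) x)) : f = g := by
  have h1 : (f : v.adicCompletion K → w.adicCompletion K') = g :=
    DenseRange.equalizer (HeightOneSpectrum.denseRange_algebraMap K v) hf hg (funext h)
  exact DFunLike.coe_injective h1

/-- `GL₂` of an inducing ring homomorphism is inducing. -/
theorem isInducing_glMap267 {R S : Type} [CommRing R] [CommRing S] [TopologicalSpace R]
    [TopologicalSpace S] (f : R →+* S) (hf : Topology.IsInducing f) :
    Topology.IsInducing (Matrix.GeneralLinearGroup.map (n := Fin 2) f) := by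
  have h1 : Topology.IsInducing ((RingHom.mapMatrix f).toMonoidHom :
      Matrix (Fin 2) (Fin 2) R →* Matrix (Fin 2) (Fin 2) S) :=
    Topology.IsInducing.matrix_map hf
  exact h1.units_map

end Completions

end Fermat.Agent.LT.T7.UD341.H267

end
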