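import Mathlib
import Fermat.Agent.LT.T7.H341.UpDatSpec
import Fermat.Agent.LT.T7.H555.LocEqInert
import Fermat.Agent.LT.T7.H267.UpInertKit

/-!
# Row LT, tower T7, leaf UD.1 `UpInertC341` (cut of helper341 of `H340.UpDatC340`; helper267,
# SPARE)

OFF-MAIN.  `upInertC_of267 : H305.SigmaLocC305 K' → H305.LocMeasC305 → H305.LocCutC305
→ UD341.UpInertC341 K K'`, VERBATIM conclusion; the three hypotheses are closed assets (plugged
in `UpInertClosed.lean`).

Proof (the sketch of the spec).  `(e, i, s_w)`, `rat_i`, `rat_s`, `ext`: `T6.InstExtC` for the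
generator `D.s.σ` of the Galois group.  `sig`: `SigmaLocC305 K'` at `PlaceRel D.s w w` (the only
place over `v` is fixed by `σ`) gives `s'_w`, and `s'_w = s_w` (continuous, agree on `K'`).
`iot`: `IsAdeleBase305.fin` gives `i'`, and `i' = i`.  `haar`: `LocMeasC305`.  `tor`, `link`:
`GL₂(i)` is an isomorphism of topological groups of the centraliser of `γ_v` onto the twisted
centraliser of `δ_w` (`T6.TwCentC`; `i` is inducing), `μt'` is the image of `L.μt v`.  `cut`:
`LocCutC305`.
-/

set_option autoImplicit false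
set_option linter.unusedSectionVars false
set_option linter.style.haveILetI false

open AutomorphicForm IsDedekindDomain NumberField MeasureTheory
open scoped ComplexConjugate

noncomputable section

namespace Fermat.Agent.LT.T7.UD341.H267

open Fermat.Agent.LT.H556 Fermat.Agent.LT.H556.A0 Fermat.Agent.LT Fermat.Agent.LT.T7
open Fermat.Agent.LT.T7.H305 Fermat.Agent.LT.T7.H340

/-! ## 1. The generator of the Galois group -/

section Gen

variable {K K' : Type} [Field K] [NumberField K] [Field K'] [NumberField K'] [Algebra K K']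

theorem sigma_fix267 (D : CompData K K') (hD : IsCompData D) (x : K) :
    D.s.σ (algebraMap K K' x) = algebraMap K K' x :=
  (hD.cyc.fixed _).1 ((hD.base _).2 ⟨x, rfl⟩)

/-- The generator `σ` as an automorphism of `K'` over `K`. -/
def sAlg267 (D : CompData K K') (hD : IsCompData D) : K' ≃ₐ[K] K' :=
  AlgEquiv.ofRingEquiv (f := D.s.σ) (sigma_fix267 D hD)

theorem sAlg_apply267 (D : CompData K K') (hD : IsCompData D) (y : K') :
    sAlg267 D hD y = D.s.σ y := rfl

theorem sAlg_toRingEquiv267 (D : CompData K K') (hD : IsCompData D) :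
    (sAlg267 D hD).toRingEquiv = D.s.σ := by
  ext y
  rfl

theorem sAlg_gen267 (D : CompData K K') (hD : IsCompData D) (hcyc : IsCycExt K K' D.l) :
    ∀ t : K' ≃ₐ[K] K', t ∈ Subgroup.zpowers (sAlg267 D hD) := by
  have := hcyc.galois
  have : Fact D.l.Prime := ⟨hcyc.prime⟩
  have hcard : Nat.card (K' ≃ₐ[K] K') = D.l := by
    rw [IsGalois.card_aut_eq_finrank, hcyc.degree]
  have hne : sAlg267 D hD ≠ 1 := by
    obtain ⟨x, hx⟩ := hD.cyc.faithful 1 Nat.one_pos hcyc.prime.one_lt
    intro h
    apply hx
    have h1 := congrArg (fun t : K' ≃ₐ[K] K' => t x) h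
    simpa [sAlg_apply267] using h1
  intro t
  rw [zpowers_eq_top_of_prime_card hcard hne]
  trivial

/-- The only place over `v` is fixed by `σ`. -/
theorem placeRel_self267 (D : CompData K K') (hD : IsCompData D)
    (v : HeightOneSpectrum (𝓞 K)) (w : HeightOneSpectrum (𝓞 K')) (hvw : PlaceOver K K' v w)
    (huniq : ∀ w' : HeightOneSpectrum (𝓞 K'), PlaceOver K K' v w' → w' = w) :
    T5.PlaceRel D.s w w := by
  have h1 := T6.H267.comap_eq_of_unique v w (sAlg267 D hD)
    (fun x => H555.placeOver_iff555 hvw x)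
    (fun w' hw' => huniq w' (H555.placeOver_of_le555 hw'))
  rw [sAlg_toRingEquiv267] at h1
  show w.asIdeal = Ideal.map (RingOfIntegers.mapRingEquiv D.s.σ) w.asIdeal
  conv_rhs => rw [← h1]
  exact (Ideal.map_comap_of_surjective _ (RingOfIntegers.mapRingEquiv D.s.σ).surjective _).symm

end Gen

/-! ## 2. The centraliser of `γ` and the twisted centraliser of `δ` -/

section Cent

variable {k k' : Type} [Field k] [Field k'] [Valued k T6.Γ₀] [Valued k' T6.Γ₀]

theorem mem_cent_iff267 (γ t : GL (Fin 2) k) :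
    t ∈ T6.twCentSub (T6.glAut (RingEquiv.refl k)) γ ↔ t * γ = γ * t := by
  show t⁻¹ * γ * T6.glAut (RingEquiv.refl k) t = γ ↔ t * γ = γ * t
  rw [H555.glAut_refl555, mul_assoc, inv_mul_eq_iff_eq_mul]
  exact eq_comm

theorem glMap_injective267 (i : k →+* k') :
    Function.Injective (Matrix.GeneralLinearGroup.map (n := Fin 2) i) := by
  intro a b hab
  apply Matrix.GeneralLinearGroup.ext
  intro p q
  have h1 := congrArg (fun g : GL (Fin 2) k' => g p q) hab
  simp only [Matrix.GeneralLinearGroup.map_apply] at h1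
  exact i.injective h1

variable (i : k →+* k') (s : k' ≃+* k') (γ : GL (Fin 2) k) (δ : GL (Fin 2) k')
  (h : ∀ x : GL (Fin 2) k', T6.InTwCent s δ x ↔
    ∃ t : GL (Fin 2) k, t * γ = γ * t ∧ x = Matrix.GeneralLinearGroup.map i t)

/-- `GL₂(i)` from the centraliser of `γ` to the twisted centraliser of `δ`. -/
def centHom267 :
    T6.twCentSub (T6.glAut (RingEquiv.refl k)) γ →* T6.twCentSub (T6.glAut s) δ :=
  ((Matrix.GeneralLinearGroup.map i).comp (Subgroup.subtype _)).codRestrict _
    (fun t => (h _).2 ⟨t.1, (mem_cent_iff267 γ t.1).1 t.2, rfl⟩)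

theorem centHom_coe267 (t : T6.twCentSub (T6.glAut (RingEquiv.refl k)) γ) :
    ((centHom267 i s γ δ h t : T6.twCentSub (T6.glAut s) δ) : GL (Fin 2) k')
      = Matrix.GeneralLinearGroup.map i (t : GL (Fin 2) k) := rfl

theorem centHom_bijective267 : Function.Bijective (centHom267 i s γ δ h) := by
  constructor
  · intro a b hab
    apply Subtype.ext
    apply glMap_injective267 i
    have h1 := congrArg Subtype.val hab
    exact h1
  · intro x
    obtain ⟨t, ht, hx⟩ := (h x.1).1 x.2
    exact ⟨⟨t, (mem_cent_iff267 γ t).2 ht⟩, Subtype.ext hx.symm⟩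

/-- `GL₂(i)` as an isomorphism of the centraliser of `γ` onto the twisted centraliser of `δ`. -/
def centEquiv267 :
    T6.twCentSub (T6.glAut (RingEquiv.refl k)) γ ≃* T6.twCentSub (T6.glAut s) δ :=
  MulEquiv.ofBijective (centHom267 i s γ δ h) (centHom_bijective267 i s γ δ h)

theorem centEquiv_coe267 (t : T6.twCentSub (T6.glAut (RingEquiv.refl k)) γ) :
    ((centEquiv267 i s γ δ h t : T6.twCentSub (T6.glAut s) δ) : GL (Fin 2) k')
      = Matrix.GeneralLinearGroup.map i (t : GL (Fin 2) k) := rfl

theorem continuous_centEquiv267 (hi : Topology.IsInducing i) :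
    Continuous (centEquiv267 i s γ δ h) := by
  rw [continuous_induced_rng]
  exact (isInducing_glMap267 i hi).continuous.comp continuous_subtype_val

theorem isInducing_centEquiv267 (hi : Topology.IsInducing i) :
    Topology.IsInducing (centEquiv267 i s γ δ h) := by
  refine Topology.IsInducing.of_comp (continuous_centEquiv267 i s γ δ h hi)
    (continuous_subtype_val (p := fun x => x ∈ T6.twCentSub (T6.glAut s) δ)) ?_
  exact (isInducing_glMap267 i hi).comp Topology.IsInducing.subtypeVal

theorem continuous_centEquiv_symm267 (hi : Topology.IsInducing i) :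
    Continuous (centEquiv267 i s γ δ h).symm :=
  ((centEquiv267 i s γ δ h).toEquiv.toHomeomorphOfIsInducing
    (isInducing_centEquiv267 i s γ δ h hi)).symm.continuous

theorem trace_glMap267 (t : GL (Fin 2) k) :
    ((Matrix.GeneralLinearGroup.map i t : GL (Fin 2) k') : Matrix (Fin 2) (Fin 2) k').trace
      = i (t : Matrix (Fin 2) (Fin 2) k).trace := by
  have h1 : ((Matrix.GeneralLinearGroup.map i t : GL (Fin 2) k') : Matrix (Fin 2) (Fin 2) k')
      = (t : Matrix (Fin 2) (Fin 2) k).map i := rfl
  rw [h1]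
  simp [Matrix.trace_fin_two]

theorem det_glMap267 (t : GL (Fin 2) k) :
    ((Matrix.GeneralLinearGroup.map i t : GL (Fin 2) k') : Matrix (Fin 2) (Fin 2) k').det
      = i (t : Matrix (Fin 2) (Fin 2) k).det := by
  have h1 : ((Matrix.GeneralLinearGroup.map i t : GL (Fin 2) k') : Matrix (Fin 2) (Fin 2) k')
      = (t : Matrix (Fin 2) (Fin 2) k).map i := rfl
  rw [h1]
  simp [Matrix.det_fin_two]

/-- The image of the normalised Haar measure of the centraliser of `γ` is the normalised Haar
measure of the twisted centraliser of `δ`, and the two are linked. -/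
theorem centMeasure267 (hi : Topology.IsInducing i) (e : ℕ) (he : 0 < e)
    (hv : ∀ x : k, Valued.v (i x) = Valued.v x ^ e)
    (μT : @Measure (T6.twCentSub (T6.glAut (RingEquiv.refl k)) γ) (borel _))
    (hμ : IsLocTor305 (RingEquiv.refl k) γ μT) :
    IsLocTor305 s δ (@Measure.map _ _ (borel _) (borel _) (centEquiv267 i s γ δ h) μT) ∧
      ∀ A : Set (GL (Fin 2) k'),
        (@Measure.map _ _ (borel _) (borel _) (centEquiv267 i s γ δ h) μT)
            {t | (t : GL (Fin 2) k') ∈ A}
          = μT {t | Matrix.GeneralLinearGroup.map i (t : GL (Fin 2) k) ∈ A} := by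
  letI m1 : MeasurableSpace (T6.twCentSub (T6.glAut (RingEquiv.refl k)) γ) := borel _
  haveI b1 : BorelSpace (T6.twCentSub (T6.glAut (RingEquiv.refl k)) γ) := ⟨rfl⟩
  letI m2 : MeasurableSpace (T6.twCentSub (T6.glAut s) δ) := borel _
  haveI b2 : BorelSpace (T6.twCentSub (T6.glAut s) δ) := ⟨rfl⟩
  haveI hH : Measure.IsHaarMeasure μT := hμ.1
  let Θh : T6.twCentSub (T6.glAut (RingEquiv.refl k)) γ ≃ₜ T6.twCentSub (T6.glAut s) δ :=
    (centEquiv267 i s γ δ h).toEquiv.toHomeomorphOfIsInducing
      (isInducing_centEquiv267 i s γ δ h hi)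
  have hmap : ∀ S : Set (T6.twCentSub (T6.glAut s) δ),
      (Measure.map (centEquiv267 i s γ δ h) μT) S
        = μT ((centEquiv267 i s γ δ h) ⁻¹' S) := fun S =>
    Θh.toMeasurableEquiv.map_apply S
  refine ⟨⟨?_, ?_⟩, fun A => hmap _⟩
  · exact MulEquiv.isHaarMeasure_map μT (centEquiv267 i s γ δ h)
      (continuous_centEquiv267 i s γ δ h hi) (continuous_centEquiv_symm267 i s γ δ h hi)
  · rw [hmap]
    have hset : (centEquiv267 i s γ δ h) ⁻¹'
        {t : T6.twCentSub (T6.glAut s) δ |
          Valued.v ((t : GL (Fin 2) k') : Matrix (Fin 2) (Fin 2) k').trace ≤ 1 ∧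
          Valued.v ((t : GL (Fin 2) k') : Matrix (Fin 2) (Fin 2) k').det = 1}
        = {t : T6.twCentSub (T6.glAut (RingEquiv.refl k)) γ |
          Valued.v ((t : GL (Fin 2) k) : Matrix (Fin 2) (Fin 2) k).trace ≤ 1 ∧
          Valued.v ((t : GL (Fin 2) k) : Matrix (Fin 2) (Fin 2) k).det = 1} := by
      ext t
      simp only [Set.mem_preimage, Set.mem_ofPred_eq, centEquiv_coe267, trace_glMap267,
        det_glMap267, hv]
      rw [pow_le_one_iff_of_nonneg zero_le he.ne', pow_eq_one_iff_of_nonneg zero_le he.ne']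
    rw [hset]
    exact hμ.2

end Cent

/-! ## 3. The leaf -/

section Main

variable (K K' : Type) [Field K] [NumberField K] [Field K'] [NumberField K'] [Algebra K K']

/-- **LEAF UD.1 = UP-INERT** from the closed assets `SigmaLocC305 K'`, `LocMeasC305`,
`LocCutC305`. -/
theorem upInertC_of267 (hσ : SigmaLocC305 K') (hmeas : LocMeasC305) (hcut : LocCutC305) :
    UpInertC341 K K' := by
  intro hT6 D hD hcyc ι hι n m δ γ hEll hN L hL v w hvw huniq
  have hTwCent : T6.TwCentC := hT6.2.2.1
  have hInstLocal : T6.InstLocalC := hT6.2.2.2.2.2.1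
  have hInstExt : T6.InstExtC := hT6.2.2.2.2.2.2.1
  haveI := hcyc.galois
  -- `T6.InstExtC` for the generator `σ`
  have hprime : (Module.finrank K K').Prime := by
    rw [hcyc.degree]
    exact hcyc.prime
  obtain ⟨e, i, sw, hi, hsw, hext, _⟩ := hInstExt K K' (sAlg267 D hD) (sAlg_gen267 D hD hcyc)
    hprime v w (fun x => H555.placeOver_iff555 hvw x)
    (fun w' hw' => huniq w' (H555.placeOver_of_le555 hw'))
  rw [hcyc.degree] at hext
  have hsw' : ∀ y : K', sw (algebraMap K' (w.adicCompletion K') y)
      = algebraMap K' (w.adicCompletion K') (D.s.σ y) := hsw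
  have hloc' := hInstLocal K' w
  -- regularity
  have hregγ : T6.IsReg (locG305 v γ) := H555.isReg_map555 _ hEll.1
  have hnorm : T6.twNorm sw D.l (locG305 w δ)
      = Matrix.GeneralLinearGroup.map i (locG305 v γ) := by
    rw [← H555.locG_normUpTo555 D.s w sw hsw', hN]
    exact H555.locG_base555 v w i hi γ
  have hreg : T6.IsReg (T6.twNorm sw D.l (locG305 w δ)) := by
    rw [hnorm]
    exact H555.isReg_map555 _ hregγ
  -- the twisted centraliser
  have hcent := hTwCent (v.adicCompletion K) (w.adicCompletion K') D.l i sw hext.cyc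
    (locG305 w δ) (locG305 v γ) hregγ hnorm
  have hiInd : Topology.IsInducing i := isInducing_of_val267 i e hext.e_pos hext.val_i
  obtain ⟨htor, hlink⟩ := centMeasure267 i sw (locG305 v γ) (locG305 w δ) hcent hiInd e
    hext.e_pos hext.val_i (L.μt v) (hL.tor v)
  -- the Haar measure and the cut-off
  obtain ⟨μ', hμ'⟩ := (hmeas (w.adicCompletion K') (Ideal.absNorm w.asIdeal) hloc').1 (n w)
  obtain ⟨β', hβ'⟩ := hcut (w.adicCompletion K') (Ideal.absNorm w.asIdeal) hloc' D.l sw
    hext.val_s hext.cyc.pos hext.cyc.order (locG305 w δ) hreg _ htor.1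
  -- the local form of `σ_𝔸`
  obtain ⟨sw₁, hsw₁, hval₁, hsig₁⟩ := (hσ D.s).1 w w (placeRel_self267 D hD v w hvw huniq)
  have hsweq : (sw₁ : w.adicCompletion K' →+* w.adicCompletion K')
      = (sw : w.adicCompletion K' →+* w.adicCompletion K') := by
    apply ringHom_eq_of_rat267
    · exact continuous_of_val267 _ 1 Nat.one_pos (fun x => by simpa using hval₁ x)
    · exact continuous_of_val267 _ 1 Nat.one_pos (fun x => by simpa using hext.val_s x)
    · intro y
      show sw₁ _ = sw _
      rw [hsw₁, hsw']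
  -- the local form of `ι`
  obtain ⟨e₁, i₁, he₁, hi₁, hval_i₁, hiot₁⟩ := hι.fin v w hvw
  have hieq : i₁ = i := by
    apply ringHom_eq_of_rat267
    · exact continuous_of_val267 _ e₁ he₁ hval_i₁
    · exact hiInd.continuous
    · intro x
      rw [hi₁, hi]
  refine ⟨⟨w, e, i, sw, μ',
    @Measure.map _ _ (borel _) (borel _)
      (centEquiv267 i sw (locG305 v γ) (locG305 w δ) hcent) (L.μt v), β'⟩, rfl, ?_⟩
  exact
    { ovr := hvw
      uniq := huniq
      rat_i := hi
      rat_s := hsw'
      ext := hext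
      haar := hμ'
      tor := htor
      cut := hβ'
      sig := fun a => by
        rw [hsig₁]
        exact congrArg (fun f : w.adicCompletion K' →+* w.adicCompletion K' =>
          f (T5.finHom w a)) hsweq
      iot := fun x => by
        rw [hiot₁, hieq]
      link := fun A _ => hlink A }

end Main

/-! ## Appendix: the equation lemmas of the definitions of this file are realised HERE -/

theorem eqns_realised_upInert267 : True := by
  have _a1 := @sAlg267.eq_1
  have _a2 := @sAlg267.eq_def
  have _a3 := @sAlg267.eq_unfold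
  have _b1 := @centHom267.eq_1
  have _b2 := @centHom267.eq_def
  have _b3 := @centHom267.eq_unfold
  have _c1 := @centEquiv267.eq_1
  have _c2 := @centEquiv267.eq_def
  have _c3 := @centEquiv267.eq_unfold
  trivial

end Fermat.Agent.LT.T7.UD341.H267

end
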