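import Mathlib
import Fermat.Agent.LT.T7.H267.UpInert
import Fermat.Agent.LT.T7.H558.SigmaLoc
import Fermat.Agent.LT.T7.H729.LocMeas
import Fermat.Agent.LT.T7.H729.LocCut

/-!
# Row LT, tower T7, leaf UD.1 `UpInertC341` (cut of helper341 of `H340.UpDatC340`; helper267,
# SPARE): CLOSED

OFF-MAIN.  `upInertC267 K K' : UD341.UpInertC341 K K'`, VERBATIM and UNCONDITIONAL (the
hypothesis `T6.T6Out` is in the Prop): `upInertC_of267` with the closed assets
`H558.sigmaLocC558` (helper558), `LocMeas729.locMeasC729`, `LocMeas729.locCutC729` (helper729),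
byte-identical copies.
-/

set_option autoImplicit false

open IsDedekindDomain NumberField

noncomputable section

namespace Fermat.Agent.LT.T7.UD341.H267

open Fermat.Agent.LT Fermat.Agent.LT.T7

variable (K K' : Type) [Field K] [NumberField K] [Field K'] [NumberField K'] [Algebra K K']

/-- **LEAF UD.1 = UP-INERT**, VERBATIM and UNCONDITIONAL. -/
theorem upInertC267 : UpInertC341 K K' :=
  upInertC_of267 K K' (H558.sigmaLocC558 (K := K')) LocMeas729.locMeasC729
    LocMeas729.locCutC729

end Fermat.Agent.LT.T7.UD341.H267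

end
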